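/-
P-FF row 625 (FF-G7, sub-lead helper94): INTERFACES of the sub-blocks of the explicit Jacobi
two-step.  Everything here is a definition / `Prop`; provers land
`theorem foo : <Statement>` (with the other statements as hypotheses where allowed) in their own
directory.

Notation as in `Fermat.Agent.H72.FF.GeoBlocks`: `F_L = FLb N`, `F_k = Fkb A N`, `O = gaussRing A N`,
`red = gaussRed A N`, `k = kRes A`, `R = unrInt A`, `J = Fin g ⊕ Fin g`, `π = jproj : J → Fin g`.

THE TWO-STEP (for `c = [∑ (P_i - O_i)]`, `c' = [∑ (P'_i - O_i)]`, parameter `s = (c, c')`):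
* AUX: `I`-fixed sections `u_a ∈ O ∩ L(n_a P∞)` (`a ∈ J`) whose reductions have a simple zero at
  `Qs (π a)`, only simple zeros, pairwise disjoint "extra" zero sets `Zx a`;
* `α_a(s) = u_a(P_a(s))` is approximable (T-APPROX); `f1 = ∏ (u_a - α_a)` has the zeros `P_a(s)` and
  exactly one simple zero `E_{a,v}(s)` in the disc of every `v ∈ Zx a`, whose coordinate is
  approximable (DISC-ZERO + ROOT-APPROX);
* BASIS: `I`-fixed `m_j ∈ O ∩ L(n' P∞)`, `n' = ∑ n_a`, lifting a basis of `L_k(n' Q∞)`; the matrix of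
  values of the `m_j` at the `O_i` and the `E_{a,v}(s)` is approximable (T-APPROX), its reduction
  has a one-dimensional kernel (RED-KERNEL); CRAMER gives `F2(s) = ∑ κ_j(s) m_j`;
* DIV: the residual divisor of `F2(s)` is `∑ P''_i` with `[∑ (P''_i - O_i)] = c + c'`;
* ROOT-APPROX in the disc of `Qs i` for `F2(s) / t_i`: `z (c + c') i = t_i(P''_i)` is approximable.
-/
import Fermat.Agent.H72.FF.GeoBlocks

set_option autoImplicit false
set_option synthInstance.maxHeartbeats 400000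
set_option linter.style.haveILetI false
set_option linter.unusedSectionVars false

noncomputable section

open AlgebraicCurve ModularCurve Fermat.Agent.H18 Fermat.Agent.H27.ESD

namespace Fermat.Agent.H94.FF

open Fermat.Agent.H10.FF Fermat.Agent.H72.FF

/-- "`y(P) = c`" in a general function field (`HasValue` of `GeoBlocks` is the case
`F = FLb N`, definitionally). -/
def HasVal {K F : Type*} [Field K] [Field F] [Algebra K F] (P : Place K F) (y : F) (c : K) :
    Prop :=
  y = algebraMap K F c ∨ 1 ≤ P.ord (y - algebraMap K F c)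

theorem hasValue_iff_hasVal {N : ℕ} (P : Place Qb (FLb N)) (y : FLb N) (c : Qb) :
    HasValue P y c ↔ HasVal P y c := Iff.rfl

/-- the constant `a ∈ A` as an element of the Gauss ring -/
def gaussConst (A : ValuationSubring Qb) (N : ℕ) (a : A) : gaussRing A N :=
  ⟨algebraMap Qb (FLb N) (a : Qb), rv_algebraMap_mem_rvRing a⟩

@[simp]
theorem coe_gaussConst (A : ValuationSubring Qb) (N : ℕ) (a : A) :
    ((gaussConst A N a : gaussRing A N) : FLb N) = algebraMap Qb (FLb N) (a : Qb) := rfl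

theorem gaussRed_gaussConst (A : ValuationSubring Qb) (N : ℕ) (a : A) :
    gaussRed A N (gaussConst A N a) =
      algebraMap (kRes A) (Fkb A N) (IsLocalRing.residue A a) :=
  rvRed_algebraMap a

/-- the projection `Fin g ⊕ Fin g → Fin g` -/
def jproj {g : ℕ} : Fin g ⊕ Fin g → Fin g := Sum.elim id id

/-! ### the corrected root statement (helper90's fix of `ApproxRootStatement`) -/

/-- **FF-G4c, corrected** (`φ 1 s ≠ 0` added: `0⁻¹ = 0 ∈ A`). -/
def RootFixedStatement : Prop :=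
  ∀ (ℓ : ℕ) (A : ValuationSubring Qb), ℓ.Prime → A.LiesOverPrime ℓ →
    ∀ (S : Type) [Finite S] (n : ℕ) (x : S → Fin n → Qb), (∀ s i, x s i ∈ A.nonunits) →
    ∀ ρ : S → Qb, (∀ s, ρ s ∈ A.nonunits) →
    (∀ M : ℕ, ∃ (d : ℕ) (φ : Fin (d + 2) → S → Qb),
      (∀ j, IsApprox ℓ A x (φ j)) ∧ (∀ j s, φ j s ∈ A) ∧
      (∀ s, φ 0 s ∈ A.nonunits) ∧ (∀ s, φ 1 s ≠ 0 ∧ (φ 1 s)⁻¹ ∈ A) ∧
      ∀ s, ∃ e ∈ A, ∑ j : Fin (d + 2), φ j s * ρ s ^ (j : ℕ) = (ℓ : Qb) ^ M * e) →
    IsApprox ℓ A x ρ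

/-! ### pure algebra : CRAMER -/

/-- **FF-G7-CRAMER.** A `d × (d+1)` matrix of approximable integral functions whose reduction
has a kernel of dimension `≤ 1` has an approximable integral kernel vector with a unit entry
(the signed maximal minors). -/
def CramerStatement : Prop :=
  ∀ (ℓ : ℕ) (A : ValuationSubring Qb), ℓ.Prime → A.LiesOverPrime ℓ →
    ∀ (S : Type) [Finite S] (n : ℕ) (x : S → Fin n → Qb), (∀ s i, x s i ∈ A.nonunits) →
    ∀ (d : ℕ) (C : Fin d → Fin (d + 1) → S → Qb) (Cbar : S → Fin d → Fin (d + 1) → kRes A),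
      (∀ c j, IsApprox ℓ A x (C c j)) →
      (∀ c j s, ∃ h : C c j s ∈ A, IsLocalRing.residue A ⟨C c j s, h⟩ = Cbar s c j) →
      (∀ s, ∀ v w : Fin (d + 1) → kRes A, (∀ c, ∑ j, Cbar s c j * v j = 0) →
        (∀ c, ∑ j, Cbar s c j * w j = 0) → v ≠ 0 → ∃ a : kRes A, w = a • v) →
      ∃ κ : Fin (d + 1) → S → Qb, (∀ j, IsApprox ℓ A x (κ j)) ∧ (∀ j s, κ j s ∈ A) ∧
        (∀ s c, ∑ j, C c j s * κ j s = 0) ∧ (∀ s, ∃ j, κ j s ≠ 0 ∧ (κ j s)⁻¹ ∈ A)

/-! ### geometry on a residue disc : T-APPROX, ROOT-APPROX, DISC-ZERO -/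

/-- **FF-G7-TAPPROX.** The value of an unramified function at a moving point of a residue disc
is approximable as soon as the coordinate of the point is. -/
def TaylorApproxStatement : Prop :=
  ∀ (N ℓ : ℕ) (A : ValuationSubring Qb) (r : Place Qb (FLb N) → Place (kRes A) (Fkb A N))
    (g : ℕ), GeoSetup N ℓ A r g →
    ∀ (Q : Place (kRes A) (Fkb A N)) (P : Place Qb (FLb N)) (t : gaussRing A N),
      IsUnrCoord A N r Q P t →
      ∀ y : gaussRing A N, IsUnrFn A N (y : FLb N) →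
        (∀ P1, r P1 = Q → 0 ≤ P1.ord (y : FLb N)) →
        ∀ (S : Type) [Finite S] (n : ℕ) (x : S → Fin n → Qb), (∀ s i, x s i ∈ A.nonunits) →
        ∀ (pt : S → Place Qb (FLb N)) (τ v : S → Qb), (∀ s, r (pt s) = Q) →
          (∀ s, HasValue (pt s) (t : FLb N) (τ s)) →
          (∀ s, HasValue (pt s) (y : FLb N) (v s)) →
          IsApprox ℓ A x τ → IsApprox ℓ A x v

/-- **FF-G7-ROOTAPPROX.** Let `F(s) = ∑ κ_j(s) y_j` be a family of functions, `y_j` unramified
without poles on the disc of `Q`, `κ_j` approximable with values in `A`, such that the reduction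
of `F(s)` has a SIMPLE zero at `Q`.  If `pt s` is a zero of `F(s)` in the disc of `Q`, then its
coordinate `τ s = t(pt s)` is approximable. -/
def RootApproxStatement : Prop :=
  ∀ (N ℓ : ℕ) (A : ValuationSubring Qb) (r : Place Qb (FLb N) → Place (kRes A) (Fkb A N))
    (g : ℕ), GeoSetup N ℓ A r g →
    ∀ (Q : Place (kRes A) (Fkb A N)) (P : Place Qb (FLb N)) (t : gaussRing A N),
      IsUnrCoord A N r Q P t →
      ∀ (d : ℕ) (y : Fin d → gaussRing A N), (∀ j, IsUnrFn A N (y j : FLb N)) →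
        (∀ j P1, r P1 = Q → 0 ≤ P1.ord (y j : FLb N)) →
        ∀ (S : Type) [Finite S] (n : ℕ) (x : S → Fin n → Qb), (∀ s i, x s i ∈ A.nonunits) →
        ∀ (κ : Fin d → S → A), (∀ j, IsApprox ℓ A x (fun s => (κ j s : Qb))) →
          (∀ s, Q.ord (gaussRed A N (∑ j, gaussConst A N (κ j s) * y j)) = 1) →
          ∀ (pt : S → Place Qb (FLb N)) (τ : S → Qb), (∀ s, r (pt s) = Q) →
            (∀ s, HasValue (pt s) (t : FLb N) (τ s)) →
            (∀ s, HasValue (pt s)
              (((∑ j, gaussConst A N (κ j s) * y j : gaussRing A N)) : FLb N) 0) →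
            IsApprox ℓ A x τ

/-- **FF-G7-DISCZERO.** An element of `O` without poles on the disc of `Q` whose reduction has a
simple zero at `Q` has exactly one zero in the disc, and it is simple. -/
def DiscZeroStatement : Prop :=
  ∀ (N ℓ : ℕ) (A : ValuationSubring Qb) (r : Place Qb (FLb N) → Place (kRes A) (Fkb A N))
    (g : ℕ), GeoSetup N ℓ A r g →
    ∀ (Q : Place (kRes A) (Fkb A N)) (u : gaussRing A N), Q.ord (gaussRed A N u) = 1 →
      (∀ P1, r P1 = Q → 0 ≤ P1.ord (u : FLb N)) →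
      ∃ P, r P = Q ∧ P.ord (u : FLb N) = 1 ∧
        ∀ P1, r P1 = Q → P1 ≠ P → P1.ord (u : FLb N) = 0

/-! ### the auxiliary sections : AUX, BASIS, RED-KERNEL -/

/-- The divisor data of the reduced auxiliary sections `f a` (`a ∈ Fin g ⊕ Fin g`): pole of
exact order `nn a` at `Qinf` and nowhere else, a simple zero at `Qs (jproj a)`, simple zeros at
the points of `Zx a`, no other zeros; the sets `Zx a` are pairwise disjoint and avoid `Qinf`
and all `Qs i`. -/
structure IsAuxFamily {K F : Type*} [Field K] [Field F] [Algebra K F] {g : ℕ}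
    (Qs : Fin g → Place K F) (Qinf : Place K F) (nn : Fin g ⊕ Fin g → ℕ)
    (f : Fin g ⊕ Fin g → F) (Zx : Fin g ⊕ Fin g → Finset (Place K F)) : Prop where
  qinf_ne : ∀ i, Qs i ≠ Qinf
  pole : ∀ a, Qinf.ord (f a) = -(nn a : ℤ)
  zero_main : ∀ a, (Qs (jproj a)).ord (f a) = 1
  zero_extra : ∀ a, ∀ v ∈ Zx a, v.ord (f a) = 1
  zero_else : ∀ a v, v ≠ Qinf → v ≠ Qs (jproj a) → v ∉ Zx a → v.ord (f a) = 0
  qinf_notMem : ∀ a, Qinf ∉ Zx a
  qs_notMem : ∀ a i, Qs i ∉ Zx a
  disj : ∀ a b, a ≠ b → Disjoint (Zx a) (Zx b)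
  card : ∀ a, (Zx a).card + 1 = nn a

/-- **FF-G7-AUX.** Existence of the auxiliary sections (from generic sections on the special
fibre, unramified lifting and an unramified place `P∞` outside the discs of the `Qs i`); the
pole orders can be taken `≥ n₁` for any given `n₁`. -/
def AuxSectionsStatement : Prop :=
  ∀ (N ℓ : ℕ) (A : ValuationSubring Qb) (r : Place Qb (FLb N) → Place (kRes A) (Fkb A N))
    (g : ℕ), GeoSetup N ℓ A r g →
    ∀ (Qs : Fin g → Place (kRes A) (Fkb A N)) (O : Fin g → Place Qb (FLb N))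
      (t : Fin g → gaussRing A N), IsJacSystem A N r g Qs O t →
      ∃ Pinf : Place Qb (FLb N), IsUnrPlace A N Pinf ∧ ∀ n₁ : ℕ,
        ∃ (nn : Fin g ⊕ Fin g → ℕ) (u : Fin g ⊕ Fin g → gaussRing A N)
          (Zx : Fin g ⊕ Fin g → Finset (Place (kRes A) (Fkb A N))),
          (∀ a, n₁ ≤ nn a) ∧ (∀ a, IsUnrFn A N (u a : FLb N)) ∧
          (∀ a, (u a : FLb N) ∈ riemannRochSpace (Finsupp.single Pinf (nn a : ℤ))) ∧
          IsAuxFamily Qs (r Pinf) nn (fun a => gaussRed A N (u a)) Zx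

/-- **FF-G7-BASIS.** For `n` large, `L_k(n r(P∞))` has a basis of reductions of `I`-fixed elements
of `O ∩ L_L(n P∞)`, and its dimension is `n + 1 - g`. -/
def LiftBasisStatement : Prop :=
  ∀ (N ℓ : ℕ) (A : ValuationSubring Qb) (r : Place Qb (FLb N) → Place (kRes A) (Fkb A N))
    (g : ℕ), GeoSetup N ℓ A r g →
    ∀ Pinf : Place Qb (FLb N), IsUnrPlace A N Pinf → ∃ n₀ : ℕ, ∀ n : ℕ, n₀ ≤ n →
      ∃ (d : ℕ) (m : Fin d → gaussRing A N),
        (d : ℤ) = (n : ℤ) + 1 - (g : ℤ) ∧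
        (∀ j, IsUnrFn A N (m j : FLb N)) ∧
        (∀ j, (m j : FLb N) ∈ riemannRochSpace (Finsupp.single Pinf (n : ℤ))) ∧
        LinearIndependent (kRes A) (fun j => gaussRed A N (m j)) ∧
        ∀ h ∈ riemannRochSpace (Finsupp.single (r Pinf) (n : ℤ)),
          ∃ c : Fin d → kRes A, h = ∑ j, algebraMap (kRes A) (Fkb A N) (c j) * gaussRed A N (m j)

/-- **FF-G7-REDKERNEL** (a statement about ONE function field with a Riemann package).  A
function with poles at most `(∑ nn a) Qinf` vanishing at all `Qs i` and at all extra zeros of an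
auxiliary family is a constant multiple of `∏ f a` (because `L(∑ Qs i) = K`). -/
def RedKernelStatement : Prop :=
  ∀ (K F : Type) [Field K] [Field F] [Algebra K F] (g : ℕ), RiemannPackage K F g →
    ∀ (Qs : Fin g → Place K F), Function.Injective Qs →
      (∀ f : F, f ∈ riemannRochSpace (∑ i, Finsupp.single (Qs i) (1 : ℤ)) →
        ∃ c : K, f = algebraMap K F c) →
      ∀ (Qinf : Place K F) (nn : Fin g ⊕ Fin g → ℕ) (f : Fin g ⊕ Fin g → F)
        (Zx : Fin g ⊕ Fin g → Finset (Place K F)), IsAuxFamily Qs Qinf nn f Zx →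
        ∀ h : F, h ∈ riemannRochSpace (Finsupp.single Qinf (((∑ a, nn a : ℕ)) : ℤ)) →
          (∀ i, HasVal (Qs i) h 0) → (∀ a, ∀ v ∈ Zx a, HasVal v h 0) →
          ∃ c : K, h = algebraMap K F c * ∏ a, f a

/-! ### the residual divisor : DIV -/

/-- **FF-G7-DIV.** (one parameter value.)  Let `Pt a` be a point of the disc of `Qs (jproj a)`,
`α a = u_a(Pt a)`, and let `F2 ∈ O ∩ L(n' P∞)` have reduction `γ ∏ red u_a`, `γ ≠ 0`, and vanish at
all `O i` and at the zeros of `u_a - α a` in the discs of the points of `Zx a`.  Then there are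
`P'' i` in the disc of `Qs i` such that `∑ (P'' i - O i) - ∑ (Pt a - O (jproj a))` is principal
and `F2 / t i` vanishes at `P'' i`. -/
def ResidualDivisorStatement : Prop :=
  ∀ (N ℓ : ℕ) (A : ValuationSubring Qb) (r : Place Qb (FLb N) → Place (kRes A) (Fkb A N))
    (g : ℕ), GeoSetup N ℓ A r g →
    ∀ (Qs : Fin g → Place (kRes A) (Fkb A N)) (O : Fin g → Place Qb (FLb N))
      (t : Fin g → gaussRing A N), IsJacSystem A N r g Qs O t →
    ∀ (Pinf : Place Qb (FLb N)) (nn : Fin g ⊕ Fin g → ℕ) (u : Fin g ⊕ Fin g → gaussRing A N)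
      (Zx : Fin g ⊕ Fin g → Finset (Place (kRes A) (Fkb A N))),
      (∀ a, (u a : FLb N) ∈ riemannRochSpace (Finsupp.single Pinf (nn a : ℤ))) →
      IsAuxFamily Qs (r Pinf) nn (fun a => gaussRed A N (u a)) Zx →
      ∀ (Pt : Fin g ⊕ Fin g → Place Qb (FLb N)) (α : Fin g ⊕ Fin g → A),
        (∀ a, r (Pt a) = Qs (jproj a)) →
        (∀ a, HasValue (Pt a) (u a : FLb N) (α a : Qb)) →
        ∀ F2 : gaussRing A N,
          (F2 : FLb N) ∈ riemannRochSpace (Finsupp.single Pinf (((∑ a, nn a : ℕ)) : ℤ)) →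
          (∃ γ : kRes A, γ ≠ 0 ∧
            gaussRed A N F2 = algebraMap (kRes A) (Fkb A N) γ * ∏ a, gaussRed A N (u a)) →
          (∀ i, HasValue (O i) (F2 : FLb N) 0) →
          (∀ a, ∀ v ∈ Zx a, ∀ P1, r P1 = v →
            HasValue P1 ((u a : FLb N) - algebraMap Qb (FLb N) (α a : Qb)) 0 →
            HasValue P1 (F2 : FLb N) 0) →
          ∃ P'' : Fin g → Place Qb (FLb N), (∀ i, r (P'' i) = Qs i) ∧
            (∀ i, HasValue (P'' i) ((F2 : FLb N) / (t i : FLb N)) 0) ∧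
            ∃ w : FLb N, w ≠ 0 ∧ ∀ P : Place Qb (FLb N),
              P.ord w = ((∑ i, (Finsupp.single (P'' i) (1 : ℤ) - Finsupp.single (O i) 1)
                - ∑ a, (Finsupp.single (Pt a) (1 : ℤ) - Finsupp.single (O (jproj a)) 1) :
                  Divisor Qb (FLb N))) P

end Fermat.Agent.H94.FF
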