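/-
P-FF row 625 (FF-G7), helper94: VALUE CALCULUS.
`HasVal P y c` ("`y(P) = c`") in a function field: existence (degree one), uniqueness, ring
operations, semilinear equivariance; and on the Gauss ring: integrality and compatibility with
the reduction (wrapping helper18's value lemma), values of unramified functions at unramified
places lie in `R = unrInt A`.
-/
import Fermat.Agent.H94.FF.G7Interfaces
import Fermat.Agent.H23.PlaceBasic

set_option autoImplicit false
set_option synthInstance.maxHeartbeats 400000
set_option linter.style.haveILetI false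
set_option linter.unusedSectionVars false

noncomputable section

open AlgebraicCurve ModularCurve Fermat.Agent.H18 Fermat.Agent.H27.ESD

namespace Fermat.Agent.H94.FF

open Fermat.Agent.H10.FF Fermat.Agent.H72.FF

section General

variable {K F : Type*} [Field K] [Field F] [Algebra K F] (P : Place K F)

/-- `HasVal` in terms of the valuation. -/
theorem hasVal_iff_lt_one {y : F} {c : K} :
    HasVal P y c ↔ P.adicValuation (y - algebraMap K F c) < 1 := by
  rw [Fermat.Agent.H23.adicValuation_lt_one_iff]
  unfold HasVal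
  constructor
  · rintro (h | h)
    · left; rw [h, sub_self]
    · right; omega
  · rintro (h | h)
    · left; exact sub_eq_zero.mp h
    · right; omega

theorem hasVal_const (c : K) : HasVal P (algebraMap K F c) c := Or.inl rfl

theorem hasVal_zero : HasVal P (0 : F) (0 : K) := Or.inl (map_zero _).symm

theorem hasVal_one : HasVal P (1 : F) (1 : K) := Or.inl (map_one _).symm

theorem hasVal_zero_iff {y : F} : HasVal P y 0 ↔ y = 0 ∨ 1 ≤ P.ord y := by
  unfold HasVal
  rw [map_zero, sub_zero]

variable {P}

theorem HasVal.adicValuation_le_one {y : F} {c : K} (h : HasVal P y c) :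
    P.adicValuation y ≤ 1 := by
  have h1 := (hasVal_iff_lt_one P).mp h
  have h2 : y = (y - algebraMap K F c) + algebraMap K F c := by ring
  rw [h2]
  exact (Valuation.map_add _ _ _).trans (max_le h1.le (P.adicValuation_algebraMap_le_one c))

theorem HasVal.ord_nonneg {y : F} {c : K} (h : HasVal P y c) : 0 ≤ P.ord y := by
  have h1 := h.adicValuation_le_one
  have h2 : y ∈ P.toValuationSubring :=
    (Fermat.Agent.H23.mem_iff_adicValuation_le_one P).mpr h1
  exact Fermat.Agent.H23.ord_nonneg_of_mem P h2

theorem HasVal.add {y y' : F} {c c' : K} (h : HasVal P y c) (h' : HasVal P y' c') :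
    HasVal P (y + y') (c + c') := by
  rw [hasVal_iff_lt_one] at h h' ⊢
  have h2 : y + y' - algebraMap K F (c + c') =
      (y - algebraMap K F c) + (y' - algebraMap K F c') := by
    rw [map_add]; ring
  rw [h2]
  exact lt_of_le_of_lt (Valuation.map_add _ _ _) (max_lt h h')

theorem HasVal.neg {y : F} {c : K} (h : HasVal P y c) : HasVal P (-y) (-c) := by
  rw [hasVal_iff_lt_one] at h ⊢
  have h2 : -y - algebraMap K F (-c) = -(y - algebraMap K F c) := by
    rw [map_neg]; ring
  rw [h2, Valuation.map_neg]
  exact h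

theorem HasVal.sub {y y' : F} {c c' : K} (h : HasVal P y c) (h' : HasVal P y' c') :
    HasVal P (y - y') (c - c') := by
  rw [sub_eq_add_neg, sub_eq_add_neg]
  exact h.add h'.neg

theorem HasVal.mul {y y' : F} {c c' : K} (h : HasVal P y c) (h' : HasVal P y' c') :
    HasVal P (y * y') (c * c') := by
  have hy' := h'.adicValuation_le_one
  rw [hasVal_iff_lt_one] at h h' ⊢
  have h2 : y * y' - algebraMap K F (c * c') =
      (y - algebraMap K F c) * y' + algebraMap K F c * (y' - algebraMap K F c') := by
    rw [map_mul]; ring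
  rw [h2]
  refine lt_of_le_of_lt (Valuation.map_add _ _ _) (max_lt ?_ ?_)
  · rw [map_mul]
    calc P.adicValuation (y - algebraMap K F c) * P.adicValuation y'
        ≤ P.adicValuation (y - algebraMap K F c) * 1 := by gcongr
      _ = P.adicValuation (y - algebraMap K F c) := mul_one _
      _ < 1 := h
  · rw [map_mul]
    calc P.adicValuation (algebraMap K F c) * P.adicValuation (y' - algebraMap K F c')
        ≤ 1 * P.adicValuation (y' - algebraMap K F c') := by
          gcongr
          exact P.adicValuation_algebraMap_le_one c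
      _ = P.adicValuation (y' - algebraMap K F c') := one_mul _
      _ < 1 := h'

theorem HasVal.const_mul {y : F} {c : K} (a : K) (h : HasVal P y c) :
    HasVal P (algebraMap K F a * y) (a * c) :=
  (hasVal_const P a).mul h

theorem HasVal.pow {y : F} {c : K} (h : HasVal P y c) (n : ℕ) : HasVal P (y ^ n) (c ^ n) := by
  induction n with
  | zero => simpa using hasVal_one P
  | succ n ih => rw [pow_succ, pow_succ]; exact ih.mul h

theorem hasVal_sum {ι : Type*} (s : Finset ι) (y : ι → F) (c : ι → K)
    (h : ∀ i ∈ s, HasVal P (y i) (c i)) : HasVal P (∑ i ∈ s, y i) (∑ i ∈ s, c i) := by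
  classical
  induction s using Finset.induction_on with
  | empty => simpa using hasVal_zero P
  | insert a s ha ih =>
    rw [Finset.sum_insert ha, Finset.sum_insert ha]
    exact (h a (Finset.mem_insert_self a s)).add
      (ih fun i hi => h i (Finset.mem_insert_of_mem hi))

theorem hasVal_prod {ι : Type*} (s : Finset ι) (y : ι → F) (c : ι → K)
    (h : ∀ i ∈ s, HasVal P (y i) (c i)) : HasVal P (∏ i ∈ s, y i) (∏ i ∈ s, c i) := by
  classical
  induction s using Finset.induction_on with
  | empty => simpa using hasVal_one P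
  | insert a s ha ih =>
    rw [Finset.prod_insert ha, Finset.prod_insert ha]
    exact (h a (Finset.mem_insert_self a s)).mul
      (ih fun i hi => h i (Finset.mem_insert_of_mem hi))

/-- uniqueness of values -/
theorem HasVal.unique {y : F} {c c' : K} (h : HasVal P y c) (h' : HasVal P y c') : c = c' := by
  by_contra hne
  have h1 : HasVal P (y - y) (c - c') := h.sub h'
  rw [sub_self, hasVal_iff_lt_one, zero_sub, Valuation.map_neg] at h1
  have h2 : c - c' ≠ 0 := sub_ne_zero.mpr hne
  have h3 : P.ord (algebraMap K F (c - c')) = 0 := Fermat.Agent.H23.ord_algebraMap P _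
  rw [Fermat.Agent.H23.adicValuation_lt_one_iff] at h1
  rcases h1 with h1 | h1
  · exact h2 ((map_eq_zero (algebraMap K F)).mp h1)
  · omega

/-- existence of values at places of degree one -/
theorem exists_hasVal (hdeg : P.deg = 1) {y : F} (h : 0 ≤ P.ord y) : ∃ c : K, HasVal P y c := by
  obtain ⟨c, hc⟩ := Fermat.Agent.H23.exists_const_ord_sub_pos P hdeg (Or.inr h)
  refine ⟨c, ?_⟩
  rcases hc with hc | hc
  · exact Or.inl hc
  · exact Or.inr (by omega)

/-- a function with value `c ≠ 0` has order `0` -/
theorem HasVal.ord_eq_zero {y : F} {c : K} (h : HasVal P y c) (hc : c ≠ 0) : P.ord y = 0 := by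
  have h0 := h.ord_nonneg
  by_contra hne
  have hpos : 1 ≤ P.ord y := by omega
  have h1 : HasVal P y 0 := (hasVal_zero_iff P).mpr (Or.inr hpos)
  exact hc (h.unique h1)

theorem HasVal.ne_zero {y : F} {c : K} (h : HasVal P y c) (hc : c ≠ 0) : y ≠ 0 := by
  rintro rfl
  exact hc (h.unique (hasVal_zero P))

/-- if `ord_P y = 0` and `y ≠ 0` then the value is nonzero -/
theorem HasVal.val_ne_zero {y : F} {c : K} (h : HasVal P y c) (hy : y ≠ 0) (h0 : P.ord y = 0) :
    c ≠ 0 := by
  rintro rfl
  rcases (hasVal_zero_iff P).mp h with h1 | h1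
  · exact hy h1
  · omega

theorem HasVal.inv {y : F} {c : K} (h : HasVal P y c) (hc : c ≠ 0) : HasVal P y⁻¹ c⁻¹ := by
  have hy : y ≠ 0 := h.ne_zero hc
  have h0 : P.ord y = 0 := h.ord_eq_zero hc
  have hv : P.adicValuation y⁻¹ ≤ 1 := by
    have : y⁻¹ ∈ P.toValuationSubring := by
      refine Fermat.Agent.H23.mem_of_ord_nonneg P ?_
      rw [P.ord_inv, h0]
      simp
    exact (Fermat.Agent.H23.mem_iff_adicValuation_le_one P).mp this
  rw [hasVal_iff_lt_one] at h ⊢
  have hcF : algebraMap K F c ≠ 0 := (map_ne_zero (algebraMap K F)).mpr hc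
  have h2 : y⁻¹ - algebraMap K F c⁻¹ =
      -(y⁻¹ * algebraMap K F c⁻¹ * (y - algebraMap K F c)) := by
    rw [map_inv₀]
    field_simp
    ring
  rw [h2, Valuation.map_neg, map_mul, map_mul]
  calc P.adicValuation y⁻¹ * P.adicValuation (algebraMap K F c⁻¹) *
        P.adicValuation (y - algebraMap K F c)
      ≤ 1 * 1 * P.adicValuation (y - algebraMap K F c) := by
        gcongr
        exact P.adicValuation_algebraMap_le_one c⁻¹
    _ = P.adicValuation (y - algebraMap K F c) := by rw [one_mul, one_mul]
    _ < 1 := h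

/-- values and semilinear automorphisms -/
theorem HasVal.smul (σ : SemilinearAut K F) {y : F} {c : K} (h : HasVal P y c) :
    HasVal (σ • P) (σ • y) (SemilinearAut.baseAut σ c) := by
  rcases h with h | h
  · left
    rw [h, SemilinearAut.smul_algebraMap]
  · right
    have h1 : σ • y - algebraMap K F (SemilinearAut.baseAut σ c) =
        σ • (y - algebraMap K F c) := by
      rw [smul_sub, SemilinearAut.smul_algebraMap]
    rw [h1, SemilinearAut.ord_smul]
    exact h

end General

/-! ### the Gauss ring -/

section Gauss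

variable {N ℓ : ℕ} {A : ValuationSubring Qb}
  {r : Place Qb (FLb N) → Place (kRes A) (Fkb A N)} {g : ℕ}

/-- constants of the Gauss ring are integral -/
theorem mem_of_algebraMap_mem_gaussRing (H : RvHyp A (IsLocalRing.residue A) N r) {a : Qb}
    (ha : algebraMap Qb (FLb N) a ∈ gaussRing A N) : a ∈ A := by
  by_contra hna
  have ha0 : a ≠ 0 := by
    rintro rfl
    exact hna A.zero_mem
  have hinv : a⁻¹ ∈ A := (A.mem_or_inv_mem a).resolve_left hna
  have hnu : ¬ IsUnit (⟨a⁻¹, hinv⟩ : A) := by
    intro hu
    obtain ⟨v, hv⟩ := hu.exists_right_inv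
    have h1 : a⁻¹ * (v : Qb) = 1 := congrArg Subtype.val hv
    have hva : (v : Qb) = a := by
      have := congrArg (fun x => a * x) h1
      simp only [← mul_assoc, mul_inv_cancel₀ ha0, one_mul, mul_one] at this
      exact this
    exact hna (hva ▸ v.2)
  have h0 : IsLocalRing.residue A ⟨a⁻¹, hinv⟩ = 0 := (H.hker _).mpr hnu
  have hmul : (⟨algebraMap Qb (FLb N) a, ha⟩ : gaussRing A N) * gaussConst A N ⟨a⁻¹, hinv⟩ = 1 := by
    apply Subtype.ext
    show algebraMap Qb (FLb N) a * algebraMap Qb (FLb N) a⁻¹ = 1
    rw [← map_mul, mul_inv_cancel₀ ha0, map_one]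
  have h2 := congrArg (gaussRed A N) hmul
  rw [map_mul, gaussRed_gaussConst, h0, map_zero, mul_zero, map_one] at h2
  exact zero_ne_one h2

/-- **Value lemma** (wrapping `RvHyp.value_lemma`): values of elements of `O` without poles on a
disc are integral and reduce to the values of the reduction. -/
theorem hasValue_red (H : RvHyp A (IsLocalRing.residue A) N r) (y : gaussRing A N)
    (Q : Place (kRes A) (Fkb A N)) (hnp : ∀ P1, r P1 = Q → 0 ≤ P1.ord (y : FLb N))
    (P : Place Qb (FLb N)) (hP : r P = Q) (c : Qb) (hc : HasValue P (y : FLb N) c) :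
    ∃ hcA : c ∈ A, HasVal Q (gaussRed A N y) (IsLocalRing.residue A ⟨c, hcA⟩) := by
  rcases hc with hc | hc
  · have hmem : algebraMap Qb (FLb N) c ∈ gaussRing A N := hc ▸ y.2
    have hcA := mem_of_algebraMap_mem_gaussRing H hmem
    refine ⟨hcA, Or.inl ?_⟩
    have : y = gaussConst A N ⟨c, hcA⟩ := Subtype.ext hc
    rw [this, gaussRed_gaussConst]
  · by_cases hyc : (y : FLb N) = algebraMap Qb (FLb N) c
    · have hmem : algebraMap Qb (FLb N) c ∈ gaussRing A N := hyc ▸ y.2
      have hcA := mem_of_algebraMap_mem_gaussRing H hmem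
      refine ⟨hcA, Or.inl ?_⟩
      have : y = gaussConst A N ⟨c, hcA⟩ := Subtype.ext hyc
      rw [this, gaussRed_gaussConst]
    · obtain ⟨hcA, h⟩ := H.value_lemma y Q hnp P hP c hc hyc
      exact ⟨hcA, h⟩

/-- the value of an element of `O` which reduces to a function vanishing at `Q` is a
nonunit -/
theorem hasValue_nonunit (H : RvHyp A (IsLocalRing.residue A) N r) (y : gaussRing A N)
    (Q : Place (kRes A) (Fkb A N)) (hnp : ∀ P1, r P1 = Q → 0 ≤ P1.ord (y : FLb N))
    (hQ : HasVal Q (gaussRed A N y) 0)
    (P : Place Qb (FLb N)) (hP : r P = Q) (c : Qb) (hc : HasValue P (y : FLb N) c) :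
    c ∈ A.nonunits := by
  obtain ⟨hcA, h⟩ := hasValue_red H y Q hnp P hP c hc
  have h0 : IsLocalRing.residue A ⟨c, hcA⟩ = 0 := h.unique hQ
  have hnu : ¬ IsUnit (⟨c, hcA⟩ : A) := (H.hker _).mp h0
  rw [ValuationSubring.mem_nonunits_iff_exists_mem_maximalIdeal]
  exact ⟨hcA, (IsLocalRing.mem_maximalIdeal _).mpr hnu⟩

/-- the coordinate of a point of the disc is a nonunit -/
theorem IsUnrCoord.value_nonunit (H : RvHyp A (IsLocalRing.residue A) N r)
    {Q : Place (kRes A) (Fkb A N)} {P : Place Qb (FLb N)} {t : gaussRing A N}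
    (ht : IsUnrCoord A N r Q P t) (P1 : Place Qb (FLb N)) (hP1 : r P1 = Q) (c : Qb)
    (hc : HasValue P1 (t : FLb N) c) : c ∈ A.nonunits := by
  refine hasValue_nonunit H t Q ht.nopole ?_ P1 hP1 c hc
  rw [hasVal_zero_iff]
  right
  rw [ht.simple]

/-- Galois equivariance of values on `F_L` -/
theorem hasValue_galF (σ : GQ) {P : Place Qb (FLb N)} {y : FLb N} {c : Qb}
    (h : HasValue P y c) : HasValue (galF N σ • P) (galF N σ • y) (σ c) :=
  HasVal.smul (galF N σ) h

/-- the value of an unramified function at an unramified place is fixed by inertia -/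
theorem isUnr_value_fixed {P : Place Qb (FLb N)} {y : FLb N} {c : Qb}
    (hP : IsUnrPlace A N P) (hy : IsUnrFn A N y) (h : HasValue P y c) :
    ∀ σ ∈ A.inertiaSubgroupIn ℚ, σ c = c := by
  intro σ hσ
  have h1 := hasValue_galF σ h
  rw [hP σ hσ, hy σ hσ] at h1
  exact HasVal.unique h1 h

/-- the value of an unramified element of `O` at an unramified place (no poles on its disc)
lies in `R` -/
theorem isUnr_value_mem_unrInt (H : RvHyp A (IsLocalRing.residue A) N r) (y : gaussRing A N)
    (P : Place Qb (FLb N)) (hnp : ∀ P1, r P1 = r P → 0 ≤ P1.ord (y : FLb N))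
    (hP : IsUnrPlace A N P) (hy : IsUnrFn A N (y : FLb N)) (c : Qb)
    (h : HasValue P (y : FLb N) c) : c ∈ unrInt A := by
  obtain ⟨hcA, -⟩ := hasValue_red H y (r P) hnp P rfl c h
  exact ⟨hcA, isUnr_value_fixed hP hy h⟩

end Gauss

end Fermat.Agent.H94.FF
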