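/-
P-FF row 625 (FF-G7), helper94: preliminaries of the assembly.
* `valAt` (the value as a function), no-pole lemmas for `L(n P∞)`;
* trivial closure properties of `IsApprox` (constants, variables, negatives);
* the final reindexing `Fin (g + g) → Fin g ⊕ Fin g`.
-/
import Fermat.Agent.H94.FF.Val

set_option autoImplicit false
set_option synthInstance.maxHeartbeats 400000
set_option linter.style.haveILetI false
set_option linter.unusedSectionVars false

noncomputable section

open AlgebraicCurve ModularCurve Fermat.Agent.H18 Fermat.Agent.H27.ESD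

namespace Fermat.Agent.H94.FF

open Fermat.Agent.H10.FF Fermat.Agent.H72.FF

section ValAt

variable {K F : Type*} [Field K] [Field F] [Algebra K F]

open Classical in
/-- the value of `y` at `P` (junk value `0` if `y` has a pole at `P`) -/
def valAt (P : Place K F) (y : F) : K :=
  if h : ∃ c, HasVal P y c then h.choose else 0

theorem hasVal_valAt {P : Place K F} {y : F} (h : ∃ c, HasVal P y c) :
    HasVal P y (valAt P y) := by
  unfold valAt
  rw [dif_pos h]
  exact h.choose_spec

theorem HasVal.valAt_eq {P : Place K F} {y : F} {c : K} (h : HasVal P y c) :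
    valAt P y = c :=
  (hasVal_valAt ⟨c, h⟩).unique h

theorem hasVal_valAt_of_ord {P : Place K F} (hdeg : P.deg = 1) {y : F} (h : 0 ≤ P.ord y) :
    HasVal P y (valAt P y) :=
  hasVal_valAt (exists_hasVal hdeg h)

/-- elements of `L(n P∞)` have no poles outside `P∞` -/
theorem ord_nonneg_of_mem_rr_single {Pinf : Place K F} {n : ℤ} {y : F}
    (hy : y ∈ riemannRochSpace (Finsupp.single Pinf n)) {P : Place K F} (hP : P ≠ Pinf) :
    0 ≤ P.ord y := by
  classical
  rcases (mem_riemannRochSpace_iff.mp hy) P with h | h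
  · rw [h, Place.ord_zero]
  · rw [Finsupp.single_apply, if_neg (Ne.symm hP)] at h
    simpa using h

/-- the pole order at `P∞` of an element of `L(n P∞)` -/
theorem ord_ge_of_mem_rr_single {Pinf : Place K F} {n : ℤ} {y : F}
    (hy : y ∈ riemannRochSpace (Finsupp.single Pinf n)) (hy0 : y ≠ 0) :
    -n ≤ Pinf.ord y := by
  classical
  rcases (mem_riemannRochSpace_iff.mp hy) Pinf with h | h
  · exact absurd h hy0
  · rwa [Finsupp.single_apply, if_pos rfl] at h

end ValAt

section Closure

variable {ℓ : ℕ} {A : ValuationSubring Qb} {S : Type} {n : ℕ} {x : S → Fin n → Qb}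

theorem isApprox_const' {c : Qb} (hc : c ∈ unrInt A) : IsApprox ℓ A x (fun _ => c) := by
  intro M
  refine ⟨MvPolynomial.C c, fun m => ?_, fun s => ⟨0, A.zero_mem, ?_⟩⟩
  · rw [MvPolynomial.coeff_C]
    split_ifs
    · exact hc
    · exact (unrInt A).zero_mem
  · simp

theorem isApprox_var' (i : Fin n) : IsApprox ℓ A x (fun s => x s i) := by
  intro M
  refine ⟨MvPolynomial.X i, fun m => ?_, fun s => ⟨0, A.zero_mem, ?_⟩⟩
  · rw [MvPolynomial.coeff_X]
    split_ifs
    · exact (unrInt A).one_mem
    · exact (unrInt A).zero_mem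
  · simp

theorem IsApprox.neg' {φ : S → Qb} (h : IsApprox ℓ A x φ) :
    IsApprox ℓ A x (fun s => -φ s) := by
  intro M
  obtain ⟨G, hG, hs⟩ := h M
  refine ⟨-G, fun m => ?_, fun s => ?_⟩
  · rw [MvPolynomial.coeff_neg]
    exact (unrInt A).neg_mem (hG m)
  · obtain ⟨a, ha, h1⟩ := hs s
    refine ⟨-a, A.neg_mem _ ha, ?_⟩
    rw [map_neg, mul_neg, ← h1]
    ring

/-- the final reindexing -/
theorem exists_rename_sum {g : ℕ} (G' : MvPolynomial (Fin (g + g)) Qb)
    (hG' : ∀ m, G'.coeff m ∈ unrInt A) :
    ∃ G : MvPolynomial (Fin g ⊕ Fin g) Qb, (∀ m, G.coeff m ∈ unrInt A) ∧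
      ∀ y : Fin g ⊕ Fin g → Qb,
        MvPolynomial.eval y G = MvPolynomial.eval (fun a => y (finSumFinEquiv.symm a)) G' := by
  refine ⟨MvPolynomial.rename finSumFinEquiv.symm G', fun m => ?_, fun y => ?_⟩
  · have hinj : Function.Injective (finSumFinEquiv (m := g) (n := g)).symm :=
      (finSumFinEquiv (m := g) (n := g)).symm.injective
    by_cases hm : m ∈ Set.range (Finsupp.mapDomain (M := ℕ) (finSumFinEquiv (m := g) (n := g)).symm)
    · obtain ⟨m', rfl⟩ := hm
      rw [MvPolynomial.coeff_rename_mapDomain _ hinj]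
      exact hG' m'
    · rw [MvPolynomial.coeff_rename_eq_zero _ _ _ (fun u hu => absurd ⟨u, hu⟩ hm)]
      exact (unrInt A).zero_mem
  · rw [MvPolynomial.eval_rename]
    rfl

end Closure

end Fermat.Agent.H94.FF
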