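/-
P-FF row 625 (FF-G7), helper94: two auxiliary steps of the assembly.
* `kernel_le_one`: the reduced condition matrix has a kernel of dimension `≤ 1` (from
  `RedKernelStatement` and the linear independence of the reduced basis);
* `pic0_mk_add_of_principal`: the class of `∑ (P'' i - O i)` is `c + c'`.
-/
import Fermat.Agent.H94.FF.G7Prelim

set_option autoImplicit false
set_option synthInstance.maxHeartbeats 400000
set_option linter.style.haveILetI false
set_option linter.unusedSectionVars false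

noncomputable section

open AlgebraicCurve ModularCurve Fermat.Agent.H18 Fermat.Agent.H27.ESD

namespace Fermat.Agent.H94.FF

open Fermat.Agent.H10.FF Fermat.Agent.H72.FF

/-- the reduced conditions cut out a space of dimension `≤ 1` -/
theorem kernel_le_one (hRK : RedKernelStatement) {K F : Type} [Field K] [Field F]
    [Algebra K F] {g : ℕ} (hpk : RiemannPackage K F g) {Qs : Fin g → Place K F}
    (hQs : Function.Injective Qs)
    (hns : ∀ f : F, f ∈ riemannRochSpace (∑ i, Finsupp.single (Qs i) (1 : ℤ)) →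
      ∃ c : K, f = algebraMap K F c)
    {Qinf : Place K F} {nn : Fin g ⊕ Fin g → ℕ} {f : Fin g ⊕ Fin g → F}
    {Zx : Fin g ⊕ Fin g → Finset (Place K F)} (hfam : IsAuxFamily Qs Qinf nn f Zx)
    {D : ℕ} (xb : Fin D → F)
    (hxb : ∀ j, xb j ∈ riemannRochSpace (Finsupp.single Qinf (((∑ a, nn a : ℕ)) : ℤ)))
    (hind : LinearIndependent K xb) (v w : Fin D → K)
    (hv : ∀ i, HasVal (Qs i) (∑ j, algebraMap K F (v j) * xb j) 0)
    (hv' : ∀ a, ∀ q ∈ Zx a, HasVal q (∑ j, algebraMap K F (v j) * xb j) 0)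
    (hw : ∀ i, HasVal (Qs i) (∑ j, algebraMap K F (w j) * xb j) 0)
    (hw' : ∀ a, ∀ q ∈ Zx a, HasVal q (∑ j, algebraMap K F (w j) * xb j) 0)
    (hv0 : v ≠ 0) : ∃ a : K, w = a • v := by
  have hmem : ∀ v : Fin D → K, (∑ j, algebraMap K F (v j) * xb j) ∈
      riemannRochSpace (Finsupp.single Qinf (((∑ a, nn a : ℕ)) : ℤ)) := by
    intro v
    refine Submodule.sum_mem _ fun j _ => ?_
    rw [← Algebra.smul_def]
    exact Submodule.smul_mem _ _ (hxb j)
  obtain ⟨cv, hcv⟩ := hRK K F g hpk Qs hQs hns Qinf nn f Zx hfam _ (hmem v) hv hv'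
  obtain ⟨cw, hcw⟩ := hRK K F g hpk Qs hQs hns Qinf nn f Zx hfam _ (hmem w) hw hw'
  have hli := Fintype.linearIndependent_iff.mp hind
  have hcv0 : cv ≠ 0 := by
    rintro rfl
    rw [map_zero, zero_mul] at hcv
    apply hv0
    funext j
    refine hli v ?_ j
    simpa [Algebra.smul_def] using hcv
  refine ⟨cw / cv, ?_⟩
  funext j
  have h1 : ∑ j, (w j - cw / cv * v j) • xb j = 0 := by
    have h2 : ∑ j, (w j - cw / cv * v j) • xb j =
        (∑ j, algebraMap K F (w j) * xb j) -
          algebraMap K F (cw / cv) * (∑ j, algebraMap K F (v j) * xb j) := by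
      rw [Finset.mul_sum, ← Finset.sum_sub_distrib]
      refine Finset.sum_congr rfl fun j _ => ?_
      rw [Algebra.smul_def, map_sub, map_mul]
      ring
    rw [h2, hcv, hcw, ← mul_assoc, ← map_mul, div_mul_cancel₀ cw hcv0, sub_self]
  have h3 := hli (fun j => w j - cw / cv * v j) h1 j
  simp only [Pi.smul_apply, smul_eq_mul]
  linear_combination h3

/-- the class of the residual divisor -/
theorem pic0_mk_add_of_principal {K F : Type*} [Field K] [Field F] [Algebra K F] {g : ℕ}
    (O P P' P'' : Fin g → Place K F) (w : F) (hw : w ≠ 0)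
    (hdiv : ∀ Pl : Place K F, Pl.ord w =
      ((∑ i, (Finsupp.single (P'' i) (1 : ℤ) - Finsupp.single (O i) 1)
        - ∑ a : Fin g ⊕ Fin g, (Finsupp.single (Sum.elim P P' a) (1 : ℤ)
            - Finsupp.single (O (jproj a)) 1) : Divisor K F)) Pl)
    (D D' D'' : Divisor.degZero (K := K) (F := F))
    (hD : (D : Divisor K F) = ∑ i, (Finsupp.single (P i) (1 : ℤ) - Finsupp.single (O i) 1))
    (hD' : (D' : Divisor K F) = ∑ i, (Finsupp.single (P' i) (1 : ℤ) - Finsupp.single (O i) 1))
    (hD'' : (D'' : Divisor K F) =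
      ∑ i, (Finsupp.single (P'' i) (1 : ℤ) - Finsupp.single (O i) 1)) :
    Pic0.mk D'' = Pic0.mk D + Pic0.mk D' := by
  rw [← Pic0.mk_add]
  unfold Pic0.mk
  rw [QuotientAddGroup.eq]
  rw [AddSubgroup.mem_addSubgroupOf]
  refine ⟨w⁻¹, inv_ne_zero hw, fun v => ?_⟩
  rw [Place.ord_inv, hdiv v]
  have h1 : ((-D'' + (D + D') : Divisor.degZero (K := K) (F := F)) : Divisor K F) =
      -(D'' : Divisor K F) + ((D : Divisor K F) + (D' : Divisor K F)) := by
    push_cast
    rfl
  rw [h1, hD, hD', hD'', Fintype.sum_sum_type]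
  simp only [Sum.elim_inl, Sum.elim_inr, jproj, id]
  simp only [Finsupp.coe_neg, Finsupp.coe_add, Finsupp.coe_sub, Pi.neg_apply, Pi.add_apply,
    Pi.sub_apply]
  ring

/-- a degree-zero divisor `∑ (P i - O i)` -/
theorem exists_degZero_sum_sub {K F : Type*} [Field K] [Field F] [Algebra K F]
    (hdeg : ∀ v : Place K F, v.deg = 1) {g : ℕ} (O P : Fin g → Place K F) :
    ∃ D : Divisor.degZero (K := K) (F := F),
      (D : Divisor K F) = ∑ i, (Finsupp.single (P i) (1 : ℤ) - Finsupp.single (O i) 1) := by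
  have hmem : (∑ i, (Finsupp.single (P i) (1 : ℤ) - Finsupp.single (O i) 1) : Divisor K F) ∈
      Divisor.degZero (K := K) (F := F) := by
    rw [Divisor.mem_degZero, map_sum]
    refine Finset.sum_eq_zero fun i _ => ?_
    rw [map_sub, Divisor.degree_single, Divisor.degree_single, hdeg, hdeg]
    simp
  exact ⟨⟨_, hmem⟩, rfl⟩

end Fermat.Agent.H94.FF
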