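/-
P-FF row 625 (FF-G7, sub-lead helper94): INTERFACE of the first half of the assembly
(steps AUX .. CRAMER): the family `F2(s) = ∑ κ_j(s) m_j`.
-/
import Fermat.Agent.H94.FF.G7Interfaces

set_option autoImplicit false
set_option synthInstance.maxHeartbeats 400000
set_option linter.style.haveILetI false
set_option linter.unusedSectionVars false

noncomputable section

open AlgebraicCurve ModularCurve Fermat.Agent.H18 Fermat.Agent.H27.ESD

namespace Fermat.Agent.H94.FF

open Fermat.Agent.H10.FF Fermat.Agent.H72.FF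

/-- **FF-G7-F2FAM** (first half of the two-step).  Given a finite family of `2g`-tuples of points
`Pt s a` in the discs of the `Qs (jproj a)` with approximable coordinates `τ a s = t(Pt s a)`,
there are auxiliary sections `u_a`, their values `α a s = u_a(Pt s a)`, `I`-fixed functions
`m_j ∈ O ∩ L(n' P∞)` and approximable integral coefficients `κ j s` such that
`F2(s) = ∑ κ_j(s) m_j` has reduction `γ ∏ red u_a` (`γ ≠ 0`), vanishes at all `O i` and at every
zero of `u_a - α a s` in the disc of a point of `Zx a`. -/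
def F2FamilyStatement : Prop :=
  ∀ (N ℓ : ℕ) (A : ValuationSubring Qb) (r : Place Qb (FLb N) → Place (kRes A) (Fkb A N))
    (g : ℕ), GeoSetup N ℓ A r g →
    ∀ (Qs : Fin g → Place (kRes A) (Fkb A N)) (O : Fin g → Place Qb (FLb N))
      (t : Fin g → gaussRing A N), IsJacSystem A N r g Qs O t → 0 < g →
    ∀ (S : Type) [Finite S] (n : ℕ) (x : S → Fin n → Qb), (∀ s i, x s i ∈ A.nonunits) →
    ∀ (Pt : S → Fin g ⊕ Fin g → Place Qb (FLb N)) (τ : Fin g ⊕ Fin g → S → Qb),
      (∀ s a, r (Pt s a) = Qs (jproj a)) →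
      (∀ s a, HasValue (Pt s a) (t (jproj a) : FLb N) (τ a s)) →
      (∀ a, IsApprox ℓ A x (τ a)) →
      ∃ (Pinf : Place Qb (FLb N)) (nn : Fin g ⊕ Fin g → ℕ) (u : Fin g ⊕ Fin g → gaussRing A N)
        (Zx : Fin g ⊕ Fin g → Finset (Place (kRes A) (Fkb A N))) (α : Fin g ⊕ Fin g → S → A)
        (d : ℕ) (m : Fin d → gaussRing A N) (κ : Fin d → S → A),
        (∀ a, (u a : FLb N) ∈ riemannRochSpace (Finsupp.single Pinf (nn a : ℤ))) ∧
        IsAuxFamily Qs (r Pinf) nn (fun a => gaussRed A N (u a)) Zx ∧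
        (∀ s a, HasValue (Pt s a) (u a : FLb N) (α a s : Qb)) ∧
        (∀ j, IsUnrFn A N (m j : FLb N)) ∧
        (∀ j, (m j : FLb N) ∈
          riemannRochSpace (Finsupp.single Pinf (((∑ a, nn a : ℕ)) : ℤ))) ∧
        (∀ j, IsApprox ℓ A x (fun s => (κ j s : Qb))) ∧
        (∀ s, ∃ γ : kRes A, γ ≠ 0 ∧
          gaussRed A N (∑ j, gaussConst A N (κ j s) * m j) =
            algebraMap (kRes A) (Fkb A N) γ * ∏ a, gaussRed A N (u a)) ∧
        (∀ s i, HasValue (O i)
          (((∑ j, gaussConst A N (κ j s) * m j : gaussRing A N)) : FLb N) 0) ∧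
        (∀ s a, ∀ v ∈ Zx a, ∀ P1, r P1 = v →
          HasValue P1 ((u a : FLb N) - algebraMap Qb (FLb N) (α a s : Qb)) 0 →
          HasValue P1 (((∑ j, gaussConst A N (κ j s) * m j : gaussRing A N)) : FLb N) 0)

end Fermat.Agent.H94.FF
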