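/-
P-FF row 625 (FF-G7, sub-lead helper94): INTERFACE of steps (2)-(3) of the first half of the
assembly: the values `α a s` and the moving extra zeros `E a v s`.
-/
import Fermat.Agent.H94.FF.G7Interfaces2

set_option autoImplicit false
set_option synthInstance.maxHeartbeats 400000
set_option linter.style.haveILetI false
set_option linter.unusedSectionVars false

noncomputable section

open AlgebraicCurve ModularCurve Fermat.Agent.H18 Fermat.Agent.H27.ESD

namespace Fermat.Agent.H94.FF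

open Fermat.Agent.H10.FF Fermat.Agent.H72.FF

/-- **FF-G7-MOVING** (steps (2)-(3) of F2FAM).  For auxiliary sections `u a` and points `Pt s a`
with approximable coordinates: the values `α a s = u_a(Pt s a)` are approximable nonunits, and for
every `v ∈ Zx a` the function `u_a - α a s` has exactly one zero `E a v s` in the disc of `v`;
the value at `E a v s` of ANY unramified function without poles on the disc of `v` is
approximable. -/
def MovingZerosStatement : Prop :=
  ∀ (N ℓ : ℕ) (A : ValuationSubring Qb) (r : Place Qb (FLb N) → Place (kRes A) (Fkb A N))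
    (g : ℕ), GeoSetup N ℓ A r g →
    ∀ (Qs : Fin g → Place (kRes A) (Fkb A N)) (O : Fin g → Place Qb (FLb N))
      (t : Fin g → gaussRing A N), IsJacSystem A N r g Qs O t →
    ∀ (S : Type) [Finite S] (n : ℕ) (x : S → Fin n → Qb), (∀ s i, x s i ∈ A.nonunits) →
    ∀ (Pt : S → Fin g ⊕ Fin g → Place Qb (FLb N)) (τ : Fin g ⊕ Fin g → S → Qb),
      (∀ s a, r (Pt s a) = Qs (jproj a)) →
      (∀ s a, HasValue (Pt s a) (t (jproj a) : FLb N) (τ a s)) →
      (∀ a, IsApprox ℓ A x (τ a)) →
    ∀ (Pinf : Place Qb (FLb N)) (nn : Fin g ⊕ Fin g → ℕ) (u : Fin g ⊕ Fin g → gaussRing A N)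
      (Zx : Fin g ⊕ Fin g → Finset (Place (kRes A) (Fkb A N))),
      (∀ a, IsUnrFn A N (u a : FLb N)) →
      (∀ a, (u a : FLb N) ∈ riemannRochSpace (Finsupp.single Pinf (nn a : ℤ))) →
      IsAuxFamily Qs (r Pinf) nn (fun a => gaussRed A N (u a)) Zx →
      ∃ (α : Fin g ⊕ Fin g → S → A)
        (E : Fin g ⊕ Fin g → Place (kRes A) (Fkb A N) → S → Place Qb (FLb N)),
        (∀ s a, HasValue (Pt s a) (u a : FLb N) (α a s : Qb)) ∧
        (∀ a, IsApprox ℓ A x (fun s => (α a s : Qb))) ∧
        (∀ a s, (α a s : Qb) ∈ A.nonunits) ∧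
        (∀ a, ∀ v ∈ Zx a, ∀ s, r (E a v s) = v) ∧
        (∀ a, ∀ v ∈ Zx a, ∀ s,
          HasValue (E a v s) ((u a : FLb N) - algebraMap Qb (FLb N) (α a s : Qb)) 0) ∧
        (∀ a, ∀ v ∈ Zx a, ∀ s, ∀ P1, r P1 = v →
          HasValue P1 ((u a : FLb N) - algebraMap Qb (FLb N) (α a s : Qb)) 0 → P1 = E a v s) ∧
        (∀ a, ∀ v ∈ Zx a, ∀ y : gaussRing A N, IsUnrFn A N (y : FLb N) →
          (∀ P1, r P1 = v → 0 ≤ P1.ord (y : FLb N)) →
          ∀ val : S → Qb, (∀ s, HasValue (E a v s) (y : FLb N) (val s)) → IsApprox ℓ A x val)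

end Fermat.Agent.H94.FF
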