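/-
P-FF row 625 (FF-G7), helper94: steps (2)-(3) of the first half of the assembly:
`movingZeros : TaylorApprox → RootApprox → DiscZero → UnrCoord → MovingZerosStatement`.
-/
import Fermat.Agent.H94.FF.G7Interfaces3
import Fermat.Agent.H94.FF.G7Prelim

set_option autoImplicit false
set_option synthInstance.maxHeartbeats 400000
set_option maxHeartbeats 1600000
set_option linter.style.haveILetI false
set_option linter.unusedSectionVars false

noncomputable section

open AlgebraicCurve ModularCurve Fermat.Agent.H18 Fermat.Agent.H27.ESD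

namespace Fermat.Agent.H94.FF

open Fermat.Agent.H10.FF Fermat.Agent.H72.FF

variable {N ℓ : ℕ} {A : ValuationSubring Qb}
  {r : Place Qb (FLb N) → Place (kRes A) (Fkb A N)} {g : ℕ}

theorem residue_eq_zero_of_nonunits (H : RvHyp A (IsLocalRing.residue A) N r) (a : A)
    (ha : (a : Qb) ∈ A.nonunits) : IsLocalRing.residue A a = 0 := by
  rw [H.hker]
  intro hu
  rw [ValuationSubring.mem_nonunits_iff_exists_mem_maximalIdeal] at ha
  obtain ⟨ha', hm⟩ := ha
  exact (IsLocalRing.mem_maximalIdeal _).mp hm hu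

/-- `u - α` for a nonunit `α` has the same reduction as `u` -/
theorem gaussRed_sub_gaussConst (H : RvHyp A (IsLocalRing.residue A) N r) (u : gaussRing A N)
    (a : A) (ha : (a : Qb) ∈ A.nonunits) :
    gaussRed A N (u - gaussConst A N a) = gaussRed A N u := by
  rw [map_sub, gaussRed_gaussConst, residue_eq_zero_of_nonunits H a ha, map_zero, sub_zero]

/-- no poles of `u - α` where `u` has none -/
theorem ord_sub_const_nonneg {K F : Type*} [Field K] [Field F] [Algebra K F] {P : Place K F}
    (hdeg : P.deg = 1) {y : F} (h : 0 ≤ P.ord y) (c : K) :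
    0 ≤ P.ord (y - algebraMap K F c) := by
  obtain ⟨b, hb⟩ := exists_hasVal hdeg h
  exact (hb.sub (hasVal_const P c)).ord_nonneg

theorem movingZeros (hTA : TaylorApproxStatement) (hRA : RootApproxStatement)
    (hDZ : DiscZeroStatement) (hCoord : UnrCoordStatement) : MovingZerosStatement := by
  intro N ℓ A r g hS Qs O t hsys S _ n x hx Pt τ hPt hτv hτ Pinf nn u Zx huU huL hfam
  have H := hS.rv
  have hdegL := hS.pkgL.deg_one
  -- no poles of `u a` outside the disc of `Pinf`
  have hu_np : ∀ a P1, r P1 ≠ r Pinf → 0 ≤ P1.ord (u a : FLb N) := by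
    intro a P1 h
    refine ord_nonneg_of_mem_rr_single (huL a) ?_
    rintro rfl
    exact h rfl
  have hu_npQ : ∀ a P1, r P1 = Qs (jproj a) → 0 ≤ P1.ord (u a : FLb N) := by
    intro a P1 h
    refine hu_np a P1 ?_
    rw [h]
    exact hfam.qinf_ne _
  have hu_npv : ∀ a, ∀ v ∈ Zx a, ∀ P1, r P1 = v → 0 ≤ P1.ord (u a : FLb N) := by
    intro a v hv P1 h
    refine hu_np a P1 ?_
    rw [h]
    rintro rfl
    exact hfam.qinf_notMem a hv
  -- the values `α`
  have hαex : ∀ s a, HasValue (Pt s a) (u a : FLb N) (valAt (Pt s a) (u a : FLb N)) :=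
    fun s a => hasVal_valAt_of_ord (hdegL _) (hu_npQ a _ (hPt s a))
  have hαnu : ∀ s a, valAt (Pt s a) (u a : FLb N) ∈ A.nonunits := by
    intro s a
    refine hasValue_nonunit H (u a) (Qs (jproj a)) (hu_npQ a) ?_ (Pt s a) (hPt s a) _ (hαex s a)
    rw [hasVal_zero_iff]
    right
    rw [hfam.zero_main a]
  have hαA : ∀ s a, valAt (Pt s a) (u a : FLb N) ∈ A := fun s a =>
    ((ValuationSubring.mem_nonunits_iff_exists_mem_maximalIdeal).mp (hαnu s a)).1
  let α : Fin g ⊕ Fin g → S → A := fun a s => ⟨valAt (Pt s a) (u a : FLb N), hαA s a⟩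
  have hα : ∀ s a, HasValue (Pt s a) (u a : FLb N) (α a s : Qb) := hαex
  have hαapp : ∀ a, IsApprox ℓ A x (fun s => (α a s : Qb)) := fun a =>
    hTA N ℓ A r g hS (Qs (jproj a)) (O (jproj a)) (t (jproj a)) (hsys.coord _) (u a) (huU a)
      (hu_npQ a) S n x hx (fun s => Pt s a) (τ a) _ (fun s => hPt s a) (fun s => hτv s a)
      (fun s => hα s a) (hτ a)
  -- the functions `w a s = u a - α a s`
  let w : Fin g ⊕ Fin g → S → gaussRing A N := fun a s => u a - gaussConst A N (α a s)
  have hwcoe : ∀ a s, ((w a s : gaussRing A N) : FLb N) =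
      (u a : FLb N) - algebraMap Qb (FLb N) (α a s : Qb) := fun a s => rfl
  have hwred : ∀ a s, gaussRed A N (w a s) = gaussRed A N (u a) :=
    fun a s => gaussRed_sub_gaussConst H (u a) (α a s) (hαnu s a)
  have hwnp : ∀ a, ∀ v ∈ Zx a, ∀ s P1, r P1 = v → 0 ≤ P1.ord ((w a s : gaussRing A N) : FLb N) := by
    intro a v hv s P1 h
    rw [hwcoe]
    exact ord_sub_const_nonneg (hdegL P1) (hu_npv a v hv P1 h) _
  -- the zeros
  have hE : ∀ a v s, ∃ P : Place Qb (FLb N), v ∈ Zx a →
      (r P = v ∧ P.ord ((w a s : gaussRing A N) : FLb N) = 1 ∧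
        ∀ P1, r P1 = v → P1 ≠ P → P1.ord ((w a s : gaussRing A N) : FLb N) = 0) := by
    intro a v s
    by_cases hv : v ∈ Zx a
    · obtain ⟨P, h1, h2, h3⟩ := hDZ N ℓ A r g hS v (w a s)
        (by rw [hwred]; exact hfam.zero_extra a v hv) (hwnp a v hv s)
      exact ⟨P, fun _ => ⟨h1, h2, h3⟩⟩
    · exact ⟨Pinf, fun h => absurd h hv⟩
  choose E hE using hE
  have hEzero : ∀ a, ∀ v ∈ Zx a, ∀ s,
      HasValue (E a v s) ((u a : FLb N) - algebraMap Qb (FLb N) (α a s : Qb)) 0 := by
    intro a v hv s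
    rw [← hwcoe]
    show HasVal _ _ _
    rw [hasVal_zero_iff]
    right
    rw [(hE a v s hv).2.1]
  refine ⟨α, E, hα, hαapp, fun a s => hαnu s a, fun a v hv s => (hE a v s hv).1, hEzero,
    ?_, ?_⟩
  · -- uniqueness
    intro a v hv s P1 hP1 h0
    by_contra hne
    have h1 := (hE a v s hv).2.2 P1 hP1 hne
    have h2 : ((w a s : gaussRing A N) : FLb N) ≠ 0 := by
      intro h
      have := (hE a v s hv).2.1
      rw [h, Place.ord_zero] at this
      exact zero_ne_one this
    rw [← hwcoe] at h0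
    rcases (hasVal_zero_iff P1).mp h0 with h3 | h3
    · exact h2 h3
    · omega
  · -- approximability of values at the moving zeros
    intro a v hv y hyU hynp val hval
    obtain ⟨Pv, tv, hcv⟩ := hCoord N ℓ A r g hS v
    have hτE : ∀ s, HasValue (E a v s) (tv : FLb N) (valAt (E a v s) (tv : FLb N)) :=
      fun s => hasVal_valAt_of_ord (hdegL _) (hcv.nopole _ (hE a v s hv).1)
    have hsum : ∀ s, (∑ j : Fin 2, gaussConst A N ((![(1 : A), -α a s] : Fin 2 → A) j) *
        (![u a, (1 : gaussRing A N)] : Fin 2 → gaussRing A N) j) = w a s := by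
      intro s
      rw [Fin.sum_univ_two]
      apply Subtype.ext
      simp only [Matrix.cons_val_zero, Matrix.cons_val_one, Subring.coe_add, Subring.coe_mul,
        coe_gaussConst, Subring.coe_one, mul_one]
      rw [hwcoe]
      push_cast
      simp
      ring
    have hτEapp : IsApprox ℓ A x (fun s => valAt (E a v s) (tv : FLb N)) := by
      refine hRA N ℓ A r g hS v Pv tv hcv 2 ![u a, 1] ?_ ?_ S n x hx
        (fun j s => (![(1 : A), -α a s] : Fin 2 → A) j) ?_ ?_ (E a v) _
        (fun s => (hE a v s hv).1) hτE ?_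
      · rw [Fin.forall_fin_two]
        refine ⟨huU a, ?_⟩
        intro σ hσ
        show galF N σ • ((1 : gaussRing A N) : FLb N) = ((1 : gaussRing A N) : FLb N)
        rw [Subring.coe_one, smul_one]
      · rw [Fin.forall_fin_two]
        refine ⟨fun P1 hP1 => hu_npv a v hv P1 hP1, fun P1 hP1 => ?_⟩
        show 0 ≤ P1.ord ((1 : gaussRing A N) : FLb N)
        rw [Subring.coe_one, Place.ord_one]
      · rw [Fin.forall_fin_two]
        refine ⟨?_, ?_⟩
        · exact isApprox_const' (unrInt A).one_mem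
        · exact IsApprox.neg' (hαapp a)
      · intro s
        rw [hsum s, hwred]
        exact hfam.zero_extra a v hv
      · intro s
        rw [hsum s]
        exact hEzero a v hv s
    exact hTA N ℓ A r g hS v Pv tv hcv y hyU hynp S n x hx (E a v) _ val
      (fun s => (hE a v s hv).1) hτE hval hτEapp

end Fermat.Agent.H94.FF
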