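/-
P-FF row 625 (FF-G7), helper94: SECOND HALF OF THE ASSEMBLY.
`addApprox_of_blocks : F2FamilyStatement → ResidualDivisorStatement → RootApproxStatement →
  AddApproxStatement`.
-/
import Fermat.Agent.H94.FF.G7Interfaces2
import Fermat.Agent.H94.FF.G7Kernel
import Fermat.Agent.H47.FF.RedKernelCore

set_option autoImplicit false
set_option synthInstance.maxHeartbeats 400000
set_option maxHeartbeats 1600000
set_option linter.style.haveILetI false
set_option linter.unusedSectionVars false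

noncomputable section

open AlgebraicCurve ModularCurve Fermat.Agent.H18 Fermat.Agent.H27.ESD

namespace Fermat.Agent.H94.FF

open Fermat.Agent.H10.FF Fermat.Agent.H72.FF

section AuxFamily

variable {K F : Type*} [Field K] [Field F] [Algebra K F] {g : ℕ}
  {Qs : Fin g → Place K F} {Qinf : Place K F} {nn : Fin g ⊕ Fin g → ℕ}
  {f : Fin g ⊕ Fin g → F} {Zx : Fin g ⊕ Fin g → Finset (Place K F)}

theorem IsAuxFamily.ne_zero (hfam : IsAuxFamily Qs Qinf nn f Zx) (a : Fin g ⊕ Fin g) :
    f a ≠ 0 := by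
  intro h0
  have h1 := hfam.zero_main a
  rw [h0, Place.ord_zero] at h1
  exact zero_ne_one h1

theorem IsAuxFamily.ord_at (hfam : IsAuxFamily Qs Qinf nn f Zx) (hQs : Function.Injective Qs)
    (i : Fin g) (a : Fin g ⊕ Fin g) :
    (Qs i).ord (f a) = if jproj a = i then 1 else 0 := by
  split_ifs with h
  · rw [← h]
    exact hfam.zero_main a
  · exact hfam.zero_else a (Qs i) (hfam.qinf_ne i) (fun h' => h (hQs h').symm)
      (hfam.qs_notMem a i)

theorem IsAuxFamily.ord_prod_at (hfam : IsAuxFamily Qs Qinf nn f Zx)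
    (hQs : Function.Injective Qs) (i : Fin g) : (Qs i).ord (∏ a, f a) = 2 := by
  rw [Fermat.Agent.H47.FF.ord_finset_prod _ _ _ (fun a _ => hfam.ne_zero a)]
  rw [Fintype.sum_sum_type]
  have h1 : (∑ a₁ : Fin g, (Qs i).ord (f (Sum.inl a₁))) = 1 := by
    rw [Finset.sum_eq_single i]
    · exact hfam.zero_main (Sum.inl i)
    · intro b _ hb
      rw [hfam.ord_at hQs i (Sum.inl b)]
      exact if_neg hb
    · intro h
      exact absurd (Finset.mem_univ i) h
  have h2 : (∑ a₁ : Fin g, (Qs i).ord (f (Sum.inr a₁))) = 1 := by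
    rw [Finset.sum_eq_single i]
    · exact hfam.zero_main (Sum.inr i)
    · intro b _ hb
      rw [hfam.ord_at hQs i (Sum.inr b)]
      exact if_neg hb
    · intro h
      exact absurd (Finset.mem_univ i) h
  rw [h1, h2]
  norm_num

end AuxFamily

section Final

variable {N ℓ : ℕ} {A : ValuationSubring Qb}
  {r : Place Qb (FLb N) → Place (kRes A) (Fkb A N)} {g : ℕ}

/-- the inverse of a coordinate, in the Gauss ring -/
def coordInv (t : gaussRing A N) (ht : gaussRed A N t ≠ 0) : gaussRing A N :=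
  ⟨((t : FLb N))⁻¹, inv_mem_rvRing_of_red_ne_zero ht⟩

theorem gaussRed_coordInv (t : gaussRing A N) (ht : gaussRed A N t ≠ 0) :
    gaussRed A N (coordInv t ht) = (gaussRed A N t)⁻¹ :=
  rvRed_inv ht

theorem IsUnrCoord.red_ne_zero {Q : Place (kRes A) (Fkb A N)} {P : Place Qb (FLb N)}
    {t : gaussRing A N} (ht : IsUnrCoord A N r Q P t) : gaussRed A N t ≠ 0 := by
  intro h0
  have h1 := ht.simple
  rw [h0, Place.ord_zero] at h1
  exact zero_ne_one h1

/-- the divided difference `(m - m(O)) / t` -/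
def divDiff (t : gaussRing A N) (ht : gaussRed A N t ≠ 0) (m : gaussRing A N) (c : A) :
    gaussRing A N :=
  (m - gaussConst A N c) * coordInv t ht

theorem coe_divDiff (t : gaussRing A N) (ht : gaussRed A N t ≠ 0) (m : gaussRing A N) (c : A) :
    ((divDiff t ht m c : gaussRing A N) : FLb N) =
      ((m : FLb N) - algebraMap Qb (FLb N) (c : Qb)) * ((t : FLb N))⁻¹ := rfl

theorem isUnrFn_divDiff (t : gaussRing A N) (ht : gaussRed A N t ≠ 0) (m : gaussRing A N)
    (c : A) (htU : IsUnrFn A N (t : FLb N)) (hmU : IsUnrFn A N (m : FLb N))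
    (hc : (c : Qb) ∈ unrInt A) : IsUnrFn A N ((divDiff t ht m c : gaussRing A N) : FLb N) := by
  intro σ hσ
  rw [coe_divDiff, smul_mul', smul_sub, smul_inv'', htU σ hσ, hmU σ hσ,
    SemilinearAut.smul_algebraMap]
  have : SemilinearAut.baseAut (galF N σ) (c : Qb) = (c : Qb) := hc.2 σ hσ
  rw [this]

theorem divDiff_nopole (H : RvHyp A (IsLocalRing.residue A) N r)
    {Q : Place (kRes A) (Fkb A N)} {P : Place Qb (FLb N)} {t : gaussRing A N}
    (ht : IsUnrCoord A N r Q P t) (m : gaussRing A N) (c : A)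
    (hm : ∀ P1, r P1 = Q → 0 ≤ P1.ord (m : FLb N))
    (hdeg : ∀ v : Place Qb (FLb N), v.deg = 1)
    (hc : HasValue P (m : FLb N) (c : Qb)) (P1 : Place Qb (FLb N)) (hP1 : r P1 = Q) :
    0 ≤ P1.ord ((divDiff t (IsUnrCoord.red_ne_zero ht) m c : gaussRing A N) : FLb N) := by
  rw [coe_divDiff]
  by_cases h0 : (m : FLb N) - algebraMap Qb (FLb N) (c : Qb) = 0
  · rw [h0, zero_mul, Place.ord_zero]
  have ht0 : (t : FLb N) ≠ 0 := rv_coe_ne_zero_of_red_ne_zero (IsUnrCoord.red_ne_zero ht)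
  rw [P1.ord_mul h0 (inv_ne_zero ht0), P1.ord_inv]
  obtain ⟨h1, h2⟩ := H.ord_eq_of_coord Q P ht.red t ht.zero ht.simple ht.nopole
  by_cases hPP : P1 = P
  · subst hPP
    rw [h1]
    rcases hc with hc | hc
    · exact absurd (sub_eq_zero.mpr hc) h0
    · omega
  · rw [h2 P1 hP1 hPP]
    obtain ⟨b, hb⟩ := exists_hasVal (hdeg P1) (hm P1 hP1)
    have := (hb.sub (hasVal_const P1 (c : Qb))).ord_nonneg
    omega

theorem coe_sum_gaussConst_mul {d : ℕ} (κ : Fin d → A) (m : Fin d → gaussRing A N) :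
    (((∑ j, gaussConst A N (κ j) * m j : gaussRing A N)) : FLb N) =
      ∑ j, algebraMap Qb (FLb N) (κ j : Qb) * (m j : FLb N) := by
  rw [AddSubmonoidClass.coe_finsetSum]
  rfl

/-- **Second half of the assembly of FF-G7.** -/
theorem addApprox_of_blocks (hF2 : F2FamilyStatement) (hDiv : ResidualDivisorStatement)
    (hRA : RootApproxStatement) : AddApproxStatement := by
  intro N ℓ A r g hS Qs O t J1 z hsys hz S hSJ M
  have H := hS.rv
  have hdegL := hS.pkgL.deg_one
  -- the points of the classes in `S`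
  have hP : ∀ c : ↥S, ∃ (P : Fin g → Place Qb (FLb N))
      (D : Divisor.degZero (K := Qb) (F := FLb N)),
      (∀ i, r (P i) = Qs i) ∧
      (D : Divisor Qb (FLb N)) =
        ∑ i, (Finsupp.single (P i) (1 : ℤ) - Finsupp.single (O i) 1) ∧
      (c : JZero N) = Pic0.mk D :=
    fun c => (hz.mem_iff c).mp (hSJ c c.2)
  choose Pc Dc hPr hDc hcD using hP
  have hzval : ∀ (c : ↥S) (i : Fin g), HasValue (Pc c i) (t i : FLb N) (z c i) :=
    fun c i => hz.value c (Pc c) (Dc c) (hPr c) (hDc c) (hcD c) i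
  -- parameters
  let x : ↥S × ↥S → Fin (g + g) → Qb :=
    fun s a => Sum.elim (z s.1) (z s.2) (finSumFinEquiv.symm a)
  have hxsum : ∀ (s : ↥S × ↥S) (a : Fin g ⊕ Fin g),
      Sum.elim (z s.1) (z s.2) a ∈ A.nonunits := by
    intro s a
    rcases a with i | i
    · exact IsUnrCoord.value_nonunit H (hsys.coord i) (Pc s.1 i) (hPr s.1 i) _ (hzval s.1 i)
    · exact IsUnrCoord.value_nonunit H (hsys.coord i) (Pc s.2 i) (hPr s.2 i) _ (hzval s.2 i)
  have hx : ∀ s a, x s a ∈ A.nonunits := fun s a => hxsum s _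
  have main : ∀ i : Fin g,
      IsApprox ℓ A x (fun s => z ((s.1 : JZero N) + (s.2 : JZero N)) i) := by
    intro i
    have hg : 0 < g := i.pos
    let Pt : ↥S × ↥S → Fin g ⊕ Fin g → Place Qb (FLb N) :=
      fun s => Sum.elim (Pc s.1) (Pc s.2)
    let τ : Fin g ⊕ Fin g → ↥S × ↥S → Qb := fun a s => Sum.elim (z s.1) (z s.2) a
    have hPt : ∀ s a, r (Pt s a) = Qs (jproj a) := by
      intro s a
      rcases a with i | i
      · exact hPr s.1 i
      · exact hPr s.2 i
    have hτv : ∀ s a, HasValue (Pt s a) (t (jproj a) : FLb N) (τ a s) := by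
      intro s a
      rcases a with i | i
      · exact hzval s.1 i
      · exact hzval s.2 i
    have hτ : ∀ a, IsApprox ℓ A x (τ a) := by
      intro a
      have h := isApprox_var' (ℓ := ℓ) (A := A) (x := x) (finSumFinEquiv a)
      have e : (fun s => x s (finSumFinEquiv a)) = τ a := by
        funext s
        show Sum.elim (z s.1) (z s.2) (finSumFinEquiv.symm (finSumFinEquiv a)) = _
        rw [Equiv.symm_apply_apply]
      rwa [e] at h
    obtain ⟨Pinf, nn, u, Zx, α, d, m, κ, huL, hfam, hα, hmU, hmL, hκ, hγ, hO, hZ⟩ :=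
      hF2 N ℓ A r g hS Qs O t hsys hg (↥S × ↥S) (g + g) x hx Pt τ hPt hτv hτ
    -- `F2`
    have hF2L : ∀ s, (((∑ j, gaussConst A N (κ j s) * m j : gaussRing A N)) : FLb N) ∈
        riemannRochSpace (Finsupp.single Pinf (((∑ a, nn a : ℕ)) : ℤ)) := by
      intro s
      rw [coe_sum_gaussConst_mul]
      refine Submodule.sum_mem _ fun j _ => ?_
      rw [← Algebra.smul_def]
      exact Submodule.smul_mem _ _ (hmL j)
    have hdiv := fun s => hDiv N ℓ A r g hS Qs O t hsys Pinf nn u Zx huL hfam (Pt s)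
      (fun a => α a s) (hPt s) (hα s) (∑ j, gaussConst A N (κ j s) * m j) (hF2L s) (hγ s)
      (hO s) (hZ s)
    choose P2 hP2r hP2v w hw0 hwdiv using hdiv
    have hz2 : ∀ s : ↥S × ↥S,
        HasValue (P2 s i) (t i : FLb N) (z ((s.1 : JZero N) + (s.2 : JZero N)) i) := by
      intro s
      obtain ⟨D2, hD2⟩ := exists_degZero_sum_sub hdegL O (P2 s)
      have hcls := pic0_mk_add_of_principal O (Pc s.1) (Pc s.2) (P2 s) (w s) (hw0 s)
        (hwdiv s) (Dc s.1) (Dc s.2) D2 (hDc s.1) (hDc s.2) hD2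
      rw [← hcD s.1, ← hcD s.2] at hcls
      exact hz.value _ (P2 s) D2 (hP2r s) hD2 hcls.symm i
    -- final step
    have hti := hsys.coord i
    have hPinf_ne : ∀ P1, r P1 = Qs i → P1 ≠ Pinf := by
      intro P1 h1 h2
      rw [h2] at h1
      exact hfam.qinf_ne i h1.symm
    have hm_np : ∀ j P1, r P1 = Qs i → 0 ≤ P1.ord (m j : FLb N) :=
      fun j P1 h1 => ord_nonneg_of_mem_rr_single (hmL j) (hPinf_ne P1 h1)
    have hmO : ∀ j, HasValue (O i) (m j : FLb N) (valAt (O i) (m j : FLb N)) :=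
      fun j => hasVal_valAt_of_ord (hdegL _) (hm_np j (O i) hti.red)
    have hmOR : ∀ j, valAt (O i) (m j : FLb N) ∈ unrInt A := fun j =>
      isUnr_value_mem_unrInt H (m j) (O i) (by rw [hti.red]; exact hm_np j) hti.unrP (hmU j)
        _ (hmO j)
    let mO : Fin d → A := fun j => ⟨valAt (O i) (m j : FLb N), (hmOR j).1⟩
    let y : Fin d → gaussRing A N :=
      fun j => divDiff (t i) (IsUnrCoord.red_ne_zero hti) (m j) (mO j)
    have hyU : ∀ j, IsUnrFn A N (y j : FLb N) :=
      fun j => isUnrFn_divDiff _ _ _ _ hti.unrT (hmU j) (hmOR j)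
    have hynp : ∀ j P1, r P1 = Qs i → 0 ≤ P1.ord (y j : FLb N) :=
      fun j P1 h1 => divDiff_nopole H hti (m j) (mO j) (hm_np j) hdegL (hmO j) P1 h1
    -- the relation `∑ κ_j mO_j = 0`
    have hrel : ∀ s, ∑ j, (κ j s : Qb) * (mO j : Qb) = 0 := by
      intro s
      have h1 : HasVal (O i) (((∑ j, gaussConst A N (κ j s) * m j : gaussRing A N)) : FLb N)
          (∑ j, (κ j s : Qb) * (mO j : Qb)) := by
        rw [coe_sum_gaussConst_mul]
        exact hasVal_sum _ _ _ (fun j _ => HasVal.const_mul _ (hmO j))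
      exact h1.unique (hO s i)
    -- `∑ κ_j y_j = F2 / t`
    have hsumO : ∀ s, (∑ j, gaussConst A N (κ j s) * y j : gaussRing A N) =
        (∑ j, gaussConst A N (κ j s) * m j) * coordInv (t i) (IsUnrCoord.red_ne_zero hti) := by
      intro s
      apply Subtype.ext
      rw [Subring.coe_mul, coe_sum_gaussConst_mul, coe_sum_gaussConst_mul]
      have h2 : ∀ j, algebraMap Qb (FLb N) (κ j s : Qb) * ((y j : gaussRing A N) : FLb N) =
          algebraMap Qb (FLb N) (κ j s : Qb) * (m j : FLb N) * ((t i : FLb N))⁻¹ -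
            algebraMap Qb (FLb N) ((κ j s : Qb) * (mO j : Qb)) * ((t i : FLb N))⁻¹ := by
        intro j
        show algebraMap Qb (FLb N) (κ j s : Qb) *
          (((m j : FLb N) - algebraMap Qb (FLb N) (mO j : Qb)) * ((t i : FLb N))⁻¹) = _
        rw [map_mul]
        ring
      rw [Finset.sum_congr rfl (fun j _ => h2 j), Finset.sum_sub_distrib, ← Finset.sum_mul,
        ← Finset.sum_mul, ← map_sum, hrel s, map_zero, zero_mul, sub_zero]
      rfl
    refine hRA N ℓ A r g hS (Qs i) (O i) (t i) hti d y hyU hynp (↥S × ↥S) (g + g) x hx κ hκ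
      ?_ (fun s => P2 s i) _ (fun s => hP2r s i) hz2 ?_
    · intro s
      rw [hsumO s, map_mul, gaussRed_coordInv]
      obtain ⟨γ, hγ0, hγe⟩ := hγ s
      have hprod0 : (∏ a, gaussRed A N (u a)) ≠ 0 :=
        Finset.prod_ne_zero_iff.mpr fun a _ => hfam.ne_zero a
      have hγF : algebraMap (kRes A) (Fkb A N) γ ≠ 0 :=
        (map_ne_zero (algebraMap (kRes A) (Fkb A N))).mpr hγ0
      rw [hγe, (Qs i).ord_mul (mul_ne_zero hγF hprod0)
        (inv_ne_zero (IsUnrCoord.red_ne_zero hti)), (Qs i).ord_mul hγF hprod0,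
        Fermat.Agent.H23.ord_algebraMap, hfam.ord_prod_at hsys.inj i, Place.ord_inv,
        hti.simple]
      norm_num
    · intro s
      rw [hsumO s]
      exact hP2v s i
  -- conclusion
  choose G' hG' hG'e using fun i => main i M
  choose G hG hGe using fun i => exists_rename_sum (G' i) (hG' i)
  refine ⟨G, hG, fun c hc c' hc' i => ?_⟩
  obtain ⟨a, ha, h⟩ := hG'e i (⟨c, hc⟩, ⟨c', hc'⟩)
  refine ⟨a, ha, ?_⟩
  rw [hGe i]
  exact h

end Final

end Fermat.Agent.H94.FF
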