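/-
P-FF row 625 / 822 (FF-G7-F2FAM), helper94: the first half of the assembly,
`f2Family : AuxSections → LiftBasis → MovingZeros → RedKernel → Cramer → F2FamilyStatement`.
-/
import Fermat.Agent.H94.FF.G7Interfaces3
import Fermat.Agent.H94.FF.G7Kernel
import Fermat.Agent.H94.FF.G7Final

set_option autoImplicit false
set_option synthInstance.maxHeartbeats 400000
set_option maxHeartbeats 3200000
set_option linter.style.haveILetI false
set_option linter.unusedSectionVars false

noncomputable section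

open AlgebraicCurve ModularCurve Fermat.Agent.H18 Fermat.Agent.H27.ESD

namespace Fermat.Agent.H94.FF

open Fermat.Agent.H10.FF Fermat.Agent.H72.FF

variable {N ℓ : ℕ} {A : ValuationSubring Qb}
  {r : Place Qb (FLb N) → Place (kRes A) (Fkb A N)} {g : ℕ}

/-- the index type of the conditions -/
abbrev CondIdx {g : ℕ} (Zx : Fin g ⊕ Fin g → Finset (Place (kRes A) (Fkb A N))) : Type :=
  Fin g ⊕ (Σ a : Fin g ⊕ Fin g, {v // v ∈ Zx a})

theorem card_condIdx {g : ℕ} (Zx : Fin g ⊕ Fin g → Finset (Place (kRes A) (Fkb A N)))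
    (nn : Fin g ⊕ Fin g → ℕ) (hcard : ∀ a, (Zx a).card + 1 = nn a) :
    Fintype.card (CondIdx Zx) + g = ∑ a, nn a := by
  rw [Fintype.card_sum, Fintype.card_fin, Fintype.card_sigma]
  have h1 : ∀ a, Fintype.card {v // v ∈ Zx a} = (Zx a).card := fun a => Fintype.card_coe _
  simp only [h1]
  have h2 : ∑ a, nn a = ∑ a, ((Zx a).card + 1) := Finset.sum_congr rfl fun a _ => (hcard a).symm
  rw [h2, Finset.sum_add_distrib, Finset.sum_const, Finset.card_univ, Fintype.card_sum,
    Fintype.card_fin]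
  simp
  omega

theorem gaussRed_sum_gaussConst_mul {d : ℕ} (κ : Fin d → A) (m : Fin d → gaussRing A N) :
    gaussRed A N (∑ j, gaussConst A N (κ j) * m j) =
      ∑ j, algebraMap (kRes A) (Fkb A N) (IsLocalRing.residue A (κ j)) * gaussRed A N (m j) := by
  rw [map_sum]
  refine Finset.sum_congr rfl fun j _ => ?_
  rw [map_mul, gaussRed_gaussConst]

theorem f2Family (hAux : AuxSectionsStatement) (hBasis : LiftBasisStatement)
    (hMov : MovingZerosStatement) (hRK : RedKernelStatement) (hCr : CramerStatement) :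
    F2FamilyStatement := by
  intro N ℓ A r g hS Qs O t hsys hg S _ n x hx Pt τ hPt hτv hτ
  have H := hS.rv
  have hdegL := hS.pkgL.deg_one
  have hdegk := hS.pkgk.deg_one
  obtain ⟨Pinf, hPinfU, hAux'⟩ := hAux N ℓ A r g hS Qs O t hsys
  obtain ⟨n₀, hB⟩ := hBasis N ℓ A r g hS Pinf hPinfU
  obtain ⟨nn, u, Zx, hnn, huU, huL, hfam⟩ := hAux' n₀
  have hn' : n₀ ≤ ∑ a, nn a :=
    (hnn (Sum.inl ⟨0, hg⟩)).trans
      (Finset.single_le_sum (f := nn) (fun _ _ => Nat.zero_le _) (Finset.mem_univ _))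
  obtain ⟨d, m, hd, hmU, hmL, hmind, -⟩ := hB (∑ a, nn a) hn'
  obtain ⟨α, E, hα, hαapp, hαnu, hEr, hEzero, hEuniq, hEapp⟩ :=
    hMov N ℓ A r g hS Qs O t hsys S n x hx Pt τ hPt hτv hτ Pinf nn u Zx huU huL hfam
  -- the conditions
  have hcard : Fintype.card (CondIdx Zx) + 1 = d := by
    have h1 := card_condIdx Zx nn hfam.card
    have h2 : ((∑ a, nn a : ℕ) : ℤ) = (Fintype.card (CondIdx Zx) : ℤ) + (g : ℤ) := by
      rw [← h1]
      push_cast
      rfl
    rw [h2] at hd
    omega
  subst hcard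
  let e : CondIdx Zx ≃ Fin (Fintype.card (CondIdx Zx)) := Fintype.equivFin _
  let pt : CondIdx Zx → S → Place Qb (FLb N) :=
    fun c s => Sum.elim (fun i => O i) (fun p => E p.1 p.2.1 s) c
  let Qc : CondIdx Zx → Place (kRes A) (Fkb A N) := Sum.elim Qs (fun p => p.2.1)
  have hptr : ∀ c s, r (pt c s) = Qc c := by
    intro c s
    rcases c with i | p
    · exact (hsys.coord i).red
    · exact hEr p.1 p.2.1 p.2.2 s
  have hQc_ne : ∀ c, Qc c ≠ r Pinf := by
    intro c
    rcases c with i | p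
    · exact hfam.qinf_ne i
    · intro h
      exact hfam.qinf_notMem p.1 (h ▸ p.2.2)
  have hm_np : ∀ j c P1, r P1 = Qc c → 0 ≤ P1.ord (m j : FLb N) := by
    intro j c P1 h
    refine ord_nonneg_of_mem_rr_single (hmL j) ?_
    rintro rfl
    exact hQc_ne c h.symm
  have hCv : ∀ c j s, HasValue (pt c s) (m j : FLb N) (valAt (pt c s) (m j : FLb N)) :=
    fun c j s => hasVal_valAt_of_ord (hdegL _) (hm_np j c _ (hptr c s))
  -- the reduced basis
  have hxbL : ∀ j, gaussRed A N (m j) ∈
      riemannRochSpace (Finsupp.single (r Pinf) (((∑ a, nn a : ℕ)) : ℤ)) := by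
    intro j
    have := H.red_mem_riemannRochSpace _ (m j) (hmL j)
    rwa [Finsupp.mapDomain_single] at this
  have hCb : ∀ c j, HasVal (Qc c) (gaussRed A N (m j)) (valAt (Qc c) (gaussRed A N (m j))) :=
    fun c j => hasVal_valAt_of_ord (hdegk _) (ord_nonneg_of_mem_rr_single (hxbL j) (hQc_ne c))
  -- the matrices
  let C : Fin (Fintype.card (CondIdx Zx)) → Fin (Fintype.card (CondIdx Zx) + 1) → S → Qb :=
    fun c j s => valAt (pt (e.symm c) s) (m j : FLb N)
  let Cbar : S → Fin (Fintype.card (CondIdx Zx)) → Fin (Fintype.card (CondIdx Zx) + 1) →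
      kRes A := fun _ c j => valAt (Qc (e.symm c)) (gaussRed A N (m j))
  have hCapp' : ∀ (c : CondIdx Zx) j, IsApprox ℓ A x (fun s => valAt (pt c s) (m j : FLb N)) := by
    intro c j
    rcases c with i | p
    · show IsApprox ℓ A x (fun _ => valAt (O i) (m j : FLb N))
      refine isApprox_const' ?_
      exact isUnr_value_mem_unrInt H (m j) (O i)
        (fun P1 h => hm_np j (Sum.inl i) P1 (h.trans (hsys.coord i).red))
        (hsys.coord i).unrP (hmU j) _
        (hasVal_valAt_of_ord (hdegL _) (hm_np j (Sum.inl i) (O i) (hsys.coord i).red))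
    · exact hEapp p.1 p.2.1 p.2.2 (m j) (hmU j) (fun P1 h => hm_np j (Sum.inr p) P1 h) _
        (fun s => hCv (Sum.inr p) j s)
  have hCres' : ∀ (c : CondIdx Zx) j s, ∃ h : valAt (pt c s) (m j : FLb N) ∈ A,
      IsLocalRing.residue A ⟨valAt (pt c s) (m j : FLb N), h⟩ =
        valAt (Qc c) (gaussRed A N (m j)) := by
    intro c j s
    obtain ⟨hA, hv⟩ := hasValue_red H (m j) (Qc c) (hm_np j c) (pt c s) (hptr c s) _ (hCv c j s)
    exact ⟨hA, hv.unique (hCb c j)⟩
  -- vanishing of `∑ v_j red m_j` from the linear conditions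
  have key : ∀ (s : S) (v : Fin (Fintype.card (CondIdx Zx) + 1) → kRes A),
      (∀ c, ∑ j, Cbar s c j * v j = 0) → ∀ c' : CondIdx Zx,
        HasVal (Qc c') (∑ j, algebraMap (kRes A) (Fkb A N) (v j) * gaussRed A N (m j)) 0 := by
    intro s v hv c'
    have h1 : HasVal (Qc c') (∑ j, algebraMap (kRes A) (Fkb A N) (v j) * gaussRed A N (m j))
        (∑ j, v j * valAt (Qc c') (gaussRed A N (m j))) :=
      hasVal_sum _ _ _ fun j _ => HasVal.const_mul _ (hCb c' j)
    have h2 : ∑ j, v j * valAt (Qc c') (gaussRed A N (m j)) = 0 := by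
      have := hv (e c')
      simp only [Cbar, Equiv.symm_apply_apply] at this
      rw [← this]
      exact Finset.sum_congr rfl fun j _ => mul_comm _ _
    rwa [h2] at h1
  have hker : ∀ s, ∀ v w : Fin (Fintype.card (CondIdx Zx) + 1) → kRes A,
      (∀ c, ∑ j, Cbar s c j * v j = 0) → (∀ c, ∑ j, Cbar s c j * w j = 0) → v ≠ 0 →
      ∃ a : kRes A, w = a • v := by
    intro s v w hv hw hv0
    exact kernel_le_one hRK hS.pkgk hsys.inj hsys.nonspecial hfam
      (fun j => gaussRed A N (m j)) hxbL hmind v w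
      (fun i => key s v hv (Sum.inl i)) (fun a q hq => key s v hv (Sum.inr ⟨a, ⟨q, hq⟩⟩))
      (fun i => key s w hw (Sum.inl i)) (fun a q hq => key s w hw (Sum.inr ⟨a, ⟨q, hq⟩⟩)) hv0
  obtain ⟨κ, hκapp, hκA, hκker, hκunit⟩ := hCr ℓ A hS.prime hS.liesOver S n x hx
    (Fintype.card (CondIdx Zx)) C Cbar (fun c j => hCapp' (e.symm c) j)
    (fun c j s => hCres' (e.symm c) j s) hker
  let κA : Fin (Fintype.card (CondIdx Zx) + 1) → S → A := fun j s => ⟨κ j s, hκA j s⟩
  -- vanishing of `F2` at the points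
  have hvan : ∀ s (c' : CondIdx Zx), HasValue (pt c' s)
      (((∑ j, gaussConst A N (κA j s) * m j : gaussRing A N)) : FLb N) 0 := by
    intro s c'
    rw [coe_sum_gaussConst_mul]
    have h1 : HasVal (pt c' s) (∑ j, algebraMap Qb (FLb N) (κ j s) * (m j : FLb N))
        (∑ j, κ j s * valAt (pt c' s) (m j : FLb N)) :=
      hasVal_sum _ _ _ fun j _ => HasVal.const_mul _ (hCv c' j s)
    have h2 : ∑ j, κ j s * valAt (pt c' s) (m j : FLb N) = 0 := by
      have := hκker s (e c')
      simp only [C, Equiv.symm_apply_apply] at this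
      rw [← this]
      exact Finset.sum_congr rfl fun j _ => mul_comm _ _
    rw [h2] at h1
    exact h1
  refine ⟨Pinf, nn, u, Zx, α, _, m, κA, huL, hfam, hα, hmU, hmL, hκapp, ?_,
    fun s i => hvan s (Sum.inl i), ?_⟩
  · -- the reduction
    intro s
    have hred := gaussRed_sum_gaussConst_mul (fun j => κA j s) m
    have hκbar : ∀ c, ∑ j, Cbar s c j *
        IsLocalRing.residue A (κA j s) = 0 := by
      intro c
      have h1 : ∀ j, Cbar s c j = IsLocalRing.residue A
          ⟨C c j s, (hCres' (e.symm c) j s).1⟩ := fun j => ((hCres' (e.symm c) j s).2).symm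
      simp only [h1, ← map_mul, ← map_sum]
      have h2 : (∑ j, (⟨C c j s, (hCres' (e.symm c) j s).1⟩ : A) * κA j s) = 0 := by
        apply Subtype.ext
        rw [AddSubmonoidClass.coe_finsetSum]
        exact hκker s c
      rw [h2, map_zero]
    have hvanQ := key s (fun j => IsLocalRing.residue A (κA j s)) hκbar
    have hmem : (∑ j, algebraMap (kRes A) (Fkb A N) (IsLocalRing.residue A (κA j s)) *
        gaussRed A N (m j)) ∈
        riemannRochSpace (Finsupp.single (r Pinf) (((∑ a, nn a : ℕ)) : ℤ)) := by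
      refine Submodule.sum_mem _ fun j _ => ?_
      rw [← Algebra.smul_def]
      exact Submodule.smul_mem _ _ (hxbL j)
    obtain ⟨γ, hγ⟩ := hRK (kRes A) (Fkb A N) g hS.pkgk Qs hsys.inj hsys.nonspecial (r Pinf) nn
      (fun a => gaussRed A N (u a)) Zx hfam _ hmem (fun i => hvanQ (Sum.inl i))
      (fun a q hq => hvanQ (Sum.inr ⟨a, ⟨q, hq⟩⟩))
    refine ⟨γ, ?_, hred.trans hγ⟩
    rintro rfl
    rw [map_zero, zero_mul] at hγ
    have hli := Fintype.linearIndependent_iff.mp hmind
        (fun j => IsLocalRing.residue A (κA j s))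
        (by simpa [Algebra.smul_def] using hγ)
    obtain ⟨j, hj0, hjinv⟩ := hκunit s
    have hu : IsUnit (κA j s) := by
      refine IsUnit.of_mul_eq_one (⟨(κ j s)⁻¹, hjinv⟩ : A) ?_
      apply Subtype.ext
      show κ j s * (κ j s)⁻¹ = 1
      exact mul_inv_cancel₀ hj0
    exact (H.hker (κA j s)).mp (hli j) hu
  · -- vanishing at the zeros of `u a - α a s`
    intro s a v hv P1 hP1 h0
    have h1 := hEuniq a v hv s P1 hP1 h0
    rw [h1]
    exact hvan s (Sum.inr ⟨a, ⟨v, hv⟩⟩)

end Fermat.Agent.H94.FF
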