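/-
P-FF (FF-G3, official form), helper94: `taylorRed : TaylorRedStatement`.
Functional Taylor expansion on a residue disc: `y = ∑_{n<M} c_n t^n + t^M y_M` in the Gauss ring,
`c_n ∈ R`, `y_M` unramified without poles on the disc (iterated divided differences at the
centre).  The value form and the reduction form follow.
-/
import Fermat.Agent.H94.FF.G7Final

set_option autoImplicit false
set_option synthInstance.maxHeartbeats 400000
set_option maxHeartbeats 1600000
set_option linter.style.haveILetI false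
set_option linter.unusedSectionVars false

noncomputable section

open AlgebraicCurve ModularCurve Fermat.Agent.H18 Fermat.Agent.H27.ESD

namespace Fermat.Agent.H94.FF

open Fermat.Agent.H10.FF Fermat.Agent.H72.FF

variable {N ℓ : ℕ} {A : ValuationSubring Qb}
  {r : Place Qb (FLb N) → Place (kRes A) (Fkb A N)} {g : ℕ}

theorem divDiff_mul_self (t : gaussRing A N) (ht : gaussRed A N t ≠ 0) (m : gaussRing A N)
    (c : A) : t * divDiff t ht m c = m - gaussConst A N c := by
  apply Subtype.ext
  have ht0 : (t : FLb N) ≠ 0 := rv_coe_ne_zero_of_red_ne_zero ht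
  show (t : FLb N) * (((m : FLb N) - algebraMap Qb (FLb N) (c : Qb)) * ((t : FLb N))⁻¹) =
    (m : FLb N) - algebraMap Qb (FLb N) (c : Qb)
  field_simp

/-- **Functional Taylor expansion.** -/
theorem taylor_functional (hS : GeoSetup N ℓ A r g) (Q : Place (kRes A) (Fkb A N))
    (P : Place Qb (FLb N)) (t : gaussRing A N) (hc : IsUnrCoord A N r Q P t)
    (y : gaussRing A N) (hy : IsUnrFn A N (y : FLb N))
    (hnp : ∀ P1, r P1 = Q → 0 ≤ P1.ord (y : FLb N)) (M : ℕ) :
    ∃ (c : Fin M → A) (yM : gaussRing A N), (∀ n, ((c n : A) : Qb) ∈ unrInt A) ∧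
      IsUnrFn A N (yM : FLb N) ∧ (∀ P1, r P1 = Q → 0 ≤ P1.ord (yM : FLb N)) ∧
      y = ∑ n : Fin M, gaussConst A N (c n) * t ^ (n : ℕ) + t ^ M * yM := by
  have H := hS.rv
  have hdeg := hS.pkgL.deg_one
  induction M with
  | zero =>
    refine ⟨Fin.elim0, y, fun n => n.elim0, hy, hnp, ?_⟩
    simp
  | succ M ih =>
    obtain ⟨c, yM, hcR, hyMU, hyMnp, hyM⟩ := ih
    have hv : HasValue P (yM : FLb N) (valAt P (yM : FLb N)) :=
      hasVal_valAt_of_ord (hdeg P) (hyMnp P hc.red)
    have hvR : valAt P (yM : FLb N) ∈ unrInt A :=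
      isUnr_value_mem_unrInt H yM P (by rw [hc.red]; exact hyMnp) hc.unrP hyMU _ hv
    let cM : A := ⟨valAt P (yM : FLb N), hvR.1⟩
    refine ⟨Fin.snoc c cM, divDiff t (IsUnrCoord.red_ne_zero hc) yM cM, ?_,
      isUnrFn_divDiff _ _ _ _ hc.unrT hyMU hvR,
      fun P1 h1 => divDiff_nopole H hc yM cM hyMnp hdeg hv P1 h1, ?_⟩
    · intro n
      refine Fin.lastCases ?_ (fun n => ?_) n
      · rw [Fin.snoc_last]
        exact hvR
      · rw [Fin.snoc_castSucc]
        exact hcR n
    · rw [Fin.sum_univ_castSucc]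
      simp only [Fin.snoc_castSucc, Fin.snoc_last, Fin.val_castSucc, Fin.val_last]
      rw [pow_succ, mul_assoc, divDiff_mul_self]
      conv_lhs => rw [hyM]
      ring

theorem ord_pow_nat' {K F : Type*} [Field K] [Field F] [Algebra K F] (v : Place K F) (f : F)
    (n : ℕ) : v.ord (f ^ n) = n * v.ord f := by
  have := v.ord_zpow f (n : ℤ)
  rwa [zpow_natCast] at this

/-- **FF-G3, official form.** -/
theorem taylorRed : TaylorRedStatement := by
  intro N ℓ A r g hS Q P t hc y hy hnp M
  have H := hS.rv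
  have hdeg := hS.pkgL.deg_one
  obtain ⟨c, yM, hcR, hyMU, hyMnp, hyM⟩ := taylor_functional hS Q P t hc y hy hnp M
  refine ⟨c, hcR, ?_, ?_⟩
  · intro P1 hP1 a b ha hb
    obtain ⟨e, he⟩ := exists_hasVal (hdeg P1) (hyMnp P1 hP1)
    obtain ⟨heA, -⟩ := hasValue_red H yM Q hyMnp P1 hP1 e he
    refine ⟨e, heA, ?_⟩
    have h1 : HasVal P1 ((y : gaussRing A N) : FLb N)
        (∑ n : Fin M, ((c n : A) : Qb) * a ^ (n : ℕ) + a ^ M * e) := by
      have h2 : ((y : gaussRing A N) : FLb N) =
          ∑ n : Fin M, algebraMap Qb (FLb N) ((c n : A) : Qb) * (t : FLb N) ^ (n : ℕ) +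
            (t : FLb N) ^ M * (yM : FLb N) := by
        conv_lhs => rw [hyM]
        rw [Subring.coe_add, AddSubmonoidClass.coe_finsetSum]
        rfl
      rw [h2]
      refine HasVal.add (hasVal_sum _ _ _ fun n _ => ?_) ?_
      · exact HasVal.const_mul _ (HasVal.pow ha _)
      · exact HasVal.mul (HasVal.pow ha _) he
    have h3 : b = ∑ n : Fin M, ((c n : A) : Qb) * a ^ (n : ℕ) + a ^ M * e :=
      HasVal.unique hb h1
    rw [h3]
    ring
  · have h2 : gaussRed A N y - ∑ n : Fin M,
        algebraMap (kRes A) (Fkb A N) (IsLocalRing.residue A (c n)) *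
          (gaussRed A N t) ^ (n : ℕ) = (gaussRed A N t) ^ M * gaussRed A N yM := by
      conv_lhs => rw [hyM]
      rw [map_add, map_sum, map_mul, map_pow]
      simp only [map_mul, map_pow, gaussRed_gaussConst]
      ring
    rw [h2]
    by_cases h0 : gaussRed A N yM = 0
    · left
      rw [h0, mul_zero]
    · right
      have ht0 : gaussRed A N t ≠ 0 := IsUnrCoord.red_ne_zero hc
      rw [Q.ord_mul (pow_ne_zero _ ht0) h0, ord_pow_nat', hc.simple]
      have h5 : 0 ≤ Q.ord (gaussRed A N yM) := H.ord_red_nonneg yM h0 Q hyMnp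
      omega

end Fermat.Agent.H94.FF
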