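/-
P-FF row 625 (FF-G7), helper94 (sub-lead): **`addApprox : AddApproxStatement`**, unconditional.
The explicit Jacobi two-step, assembled from the landed blocks:
* helper37 `unrLifting`, helper19 `unrCoord`, helper93 `genericSection`, `auxSections`,
  helper95 `liftBasis`, helper26 `taylorApprox`, `cramer`, helper99 `rootApprox_of_taylor`,
  helper66 `discZero`, helper47 `redKernel`, helper56 `residualDivisor`;
* helper94 `taylorRed`, `movingZeros`, `f2Family`, `addApprox_of_blocks`.
-/
import Fermat.Agent.H94.FF.F2Family
import Fermat.Agent.H94.FF.Moving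
import Fermat.Agent.H94.FF.TaylorRed
import Fermat.Agent.H56.FF.ResDiv
import Fermat.Agent.H99.FF.RootApproxFinal
import Fermat.Agent.H26.FF.TaylorApprox
import Fermat.Agent.H93.FF.AuxSections
import Fermat.Agent.H93.FF.GenericSection
import Fermat.Agent.H95.FF.LiftBasis
import Fermat.Agent.H66.FF.DiscZero
import Fermat.Agent.H47.FF.RedKernel
import Fermat.Agent.H19.FF.UnrCoord
import Fermat.Agent.H37.FF.UnrLifting

set_option autoImplicit false

namespace Fermat.Agent.H94.FF

open Fermat.Agent.H72.FF

/-- `AddApproxStatement` from the first half of the two-step. -/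
theorem addApprox_of_f2Family (hF2 : F2FamilyStatement) : AddApproxStatement :=
  addApprox_of_blocks hF2 Fermat.Agent.H56.FF.residualDivisor
    (Fermat.Agent.H99.FF.rootApprox_of_taylor taylorRed)

/-- `AddApproxStatement` from unramified lifting. -/
theorem addApprox_of_unrLifting (hLift : UnrLiftingStatement) : AddApproxStatement := by
  have hCoord : UnrCoordStatement := Fermat.Agent.H19.FF.unrCoord hLift
  have hTA : TaylorApproxStatement := Fermat.Agent.H26.FF.taylorApprox taylorRed
  have hRA : RootApproxStatement := Fermat.Agent.H99.FF.rootApprox_of_taylor taylorRed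
  have hAux : AuxSectionsStatement :=
    Fermat.Agent.H93.FF.auxSections Fermat.Agent.H93.FF.genericSection hLift hCoord
  have hBasis : LiftBasisStatement := Fermat.Agent.H95.FF.liftBasis hLift
  have hMov : MovingZerosStatement :=
    movingZeros hTA hRA Fermat.Agent.H66.FF.discZero hCoord
  exact addApprox_of_f2Family
    (f2Family hAux hBasis hMov Fermat.Agent.H47.FF.redKernel Fermat.Agent.H26.FF.cramer)

/-- **FF-G7 (explicit Jacobi).** The group law in Jacobi coordinates is approximable by
polynomials over `R`.  UNCONDITIONAL. -/
theorem addApprox : AddApproxStatement :=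
  addApprox_of_unrLifting Fermat.Agent.H37.FF.unrLifting

end Fermat.Agent.H94.FF
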